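/-
Program J, chapter J4 EIG (helper10): **non-vanishing of the eigenspace of a character of a commutative
ring of integral endomorphisms.**  Pure algebra, Mathlib only.

* `exists_ne_zero_forall_mem_eq_zero` : `B` commutative artinian, `θ : B →+* End M` injective (a faithful
  module), `𝔪 ≠ ⊤` an ideal ⇒ some `v ≠ 0` is killed by `𝔪`;
* `exists_eigenvector_of_algHom` : `B` a finite-dimensional commutative `K`-algebra acting faithfully on `M`,
  `χ : B →ₐ[K] K` ⇒ there is a `χ`-eigenvector;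
* `exists_eigenvector_matrix` : `R` a commutative ring, `φ : R →+* Matrix n n ℤ` injective, `K` a field of
  characteristic zero, `χ : R →+* K` ⇒ `∃ v : n → K, v ≠ 0 ∧ ∀ r, (φ r).map Int.cast *ᵥ v = χ r • v`;
* `exists_eigenvector_baseChange` : `Λ` a finite free `ℤ`-module, `ρ : R →+* End_ℤ Λ` injective ⇒
  `∃ v : K ⊗[ℤ] Λ, v ≠ 0 ∧ ∀ r, (ρ r).baseChange K v = χ r • v`.
-/
import Mathlib

set_option autoImplicit false

noncomputable section

namespace Fermat.Agent.ES.GAL.EigenExists10

open TensorProduct Matrix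

/-! ### artinian rings: a proper ideal kills a nonzero vector of a faithful module -/

section Artinian

variable {B : Type*} [CommRing B] [IsArtinianRing B]

/-- the powers of an ideal of an artinian ring stabilise. -/
theorem exists_pow_eq_pow (𝔪 : Ideal B) : ∃ n : ℕ, 0 < n ∧ ∀ m, n ≤ m → 𝔪 ^ n = 𝔪 ^ m := by
  obtain ⟨n, hn⟩ := IsArtinian.monotone_stabilizes (R := B) (M := B)
    ⟨fun n => OrderDual.toDual (𝔪 ^ n), fun a b hab => Ideal.pow_le_pow_right hab⟩
  refine ⟨n + 1, Nat.succ_pos n, fun m hm => ?_⟩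
  have h1 := hn (n + 1) (Nat.le_succ n)
  have h2 := hn m (by omega)
  exact OrderDual.toDual.injective (h1.symm.trans h2)

variable {k M : Type*} [CommRing k] [AddCommGroup M] [Module k M]

/-- **a proper ideal of a commutative artinian ring kills a nonzero vector of any faithful module.** -/
theorem exists_ne_zero_forall_mem_eq_zero (θ : B →+* Module.End k M)
    (hθ : Function.Injective θ) (𝔪 : Ideal B) (h𝔪 : 𝔪 ≠ ⊤) :
    ∃ v : M, v ≠ 0 ∧ ∀ b ∈ 𝔪, θ b v = 0 := by
  classical
  obtain ⟨n, hn0, hn⟩ := exists_pow_eq_pow 𝔪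
  -- `I := 𝔪 ^ n` is idempotent, hence generated by an idempotent `e`
  have hidem : IsIdempotentElem (𝔪 ^ n) := by
    show 𝔪 ^ n * 𝔪 ^ n = 𝔪 ^ n
    rw [← pow_add]
    exact (hn (n + n) (Nat.le_add_right n n)).symm
  obtain ⟨e, he, hI⟩ :=
    (Ideal.isIdempotentElem_iff_of_fg _ (IsNoetherian.noetherian _)).mp hidem
  have he𝔪 : e ∈ 𝔪 := by
    have h1 : e ∈ 𝔪 ^ n := by rw [hI]; exact Ideal.mem_span_singleton_self e
    exact Ideal.pow_le_self hn0.ne' h1
  have h1e : (1 - e) ≠ 0 := by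
    intro h
    apply h𝔪
    rw [Ideal.eq_top_iff_one]
    have h2 : e = 1 := (sub_eq_zero.mp h).symm
    rwa [h2] at he𝔪
  have hθe : θ (1 - e) ≠ 0 := fun h => h1e (hθ (by rw [h, map_zero]))
  obtain ⟨w, hw⟩ : ∃ w, θ (1 - e) w ≠ 0 := by
    by_contra hcon
    push Not at hcon
    exact hθe (LinearMap.ext hcon)
  -- `𝔪 ^ n` kills `x₀ := (1 - e) w`
  have hkill : ∀ b ∈ 𝔪 ^ n, θ b (θ (1 - e) w) = 0 := by
    intro b hb
    rw [hI, Ideal.mem_span_singleton'] at hb
    obtain ⟨c, rfl⟩ := hb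
    rw [← Module.End.mul_apply, ← map_mul]
    have h3 : c * e * (1 - e) = 0 := by
      rw [mul_assoc, mul_sub, mul_one, he.eq, sub_self, mul_zero]
    rw [h3, map_zero θ]
    rfl
  -- the least `j` with `𝔪 ^ j` killing `x₀`
  have hex : ∃ j, ∀ b ∈ 𝔪 ^ j, θ b (θ (1 - e) w) = 0 := ⟨n, hkill⟩
  have hj : ∀ b ∈ 𝔪 ^ Nat.find hex, θ b (θ (1 - e) w) = 0 := Nat.find_spec hex
  have hj0 : Nat.find hex ≠ 0 := by
    intro h0
    apply hw
    have h4 := hj 1 (by rw [h0, pow_zero, Ideal.one_eq_top]; exact Submodule.mem_top)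
    rw [map_one θ] at h4
    exact h4
  obtain ⟨j', hj'⟩ := Nat.exists_eq_succ_of_ne_zero hj0
  have hmin : ¬ ∀ b ∈ 𝔪 ^ j', θ b (θ (1 - e) w) = 0 := Nat.find_min hex (by omega)
  push Not at hmin
  obtain ⟨b, hb, hbx⟩ := hmin
  refine ⟨θ b (θ (1 - e) w), hbx, fun c hc => ?_⟩
  rw [← Module.End.mul_apply, ← map_mul]
  apply hj
  rw [hj', pow_succ']
  exact Ideal.mul_mem_mul hc hb

end Artinian

/-! ### eigenvectors of characters of finite-dimensional commutative algebras -/

section AlgHom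

variable {K B M : Type*} [Field K] [CommRing B] [Algebra K B] [Module.Finite K B]
  [AddCommGroup M] [Module K M]

/-- **a character of a finite-dimensional commutative algebra acting faithfully has an
eigenvector.** -/
theorem exists_eigenvector_of_algHom (θ : B →ₐ[K] Module.End K M) (hθ : Function.Injective θ)
    (χ : B →ₐ[K] K) : ∃ v : M, v ≠ 0 ∧ ∀ b : B, θ b v = χ b • v := by
  have : IsArtinianRing B := IsArtinianRing.of_finite K B
  obtain ⟨v, hv, h⟩ := exists_ne_zero_forall_mem_eq_zero (θ : B →+* Module.End K M) hθ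
    (RingHom.ker (χ : B →+* K)) (RingHom.ker_ne_top _)
  refine ⟨v, hv, fun b => ?_⟩
  have hb : b - algebraMap K B (χ b) ∈ RingHom.ker (χ : B →+* K) := by
    rw [RingHom.mem_ker]
    show χ (b - algebraMap K B (χ b)) = 0
    rw [map_sub, AlgHom.commutes, Algebra.algebraMap_self, RingHom.id_apply, sub_self]
  have h1 := h _ hb
  have h2 : (θ : B →+* Module.End K M) (b - algebraMap K B (χ b)) v =
      θ b v - χ b • v := by
    show θ (b - algebraMap K B (χ b)) v = _
    rw [map_sub, LinearMap.sub_apply, AlgHom.commutes, Module.algebraMap_end_apply]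
  rw [h2, sub_eq_zero] at h1
  exact h1

end AlgHom

/-! ### integral matrices -/

section MatrixForm

variable {R : Type*} [CommRing R] {n : Type*} [Fintype n] [DecidableEq n]
variable {K : Type*} [Field K] [CharZero K]

/-- the entries of an integral matrix, as a `ℤ`-linear map into `n × n → ℤ`. -/
def entries (φ : R →+* Matrix n n ℤ) : R →ₗ[ℤ] (n × n → ℤ) where
  toFun r p := φ r p.1 p.2
  map_add' r s := by ext p; simp
  map_smul' z r := by
    ext p
    show φ (z • r) p.1 p.2 = z • φ r p.1 p.2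
    rw [map_zsmul]
    rfl

theorem entries_injective (φ : R →+* Matrix n n ℤ) (hφ : Function.Injective φ) :
    Function.Injective (entries φ) := by
  intro r s h
  apply hφ
  ext i j
  exact congrFun h (i, j)

/-- `K ⊗ R → (n × n → K)`, injective by flatness of `K` over `ℤ`. -/
def entriesK (K : Type*) [Field K] (φ : R →+* Matrix n n ℤ) : K ⊗[ℤ] R →ₗ[K] (n × n → K) :=
  (TensorProduct.piScalarRight ℤ K K (n × n)).toLinearMap ∘ₗ
    (entries φ).baseChange K

theorem entriesK_injective (φ : R →+* Matrix n n ℤ) (hφ : Function.Injective φ) :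
    Function.Injective (entriesK K φ) := by
  have h1 : Function.Injective ((entries φ).baseChange K) := by
    rw [LinearMap.baseChange_eq_ltensor]
    exact Module.Flat.lTensor_preserves_injective_linearMap _ (entries_injective φ hφ)
  exact (TensorProduct.piScalarRight ℤ K K (n × n)).injective.comp h1

omit [CharZero K] in
theorem entriesK_tmul (φ : R →+* Matrix n n ℤ) (a : K) (r : R) (p : n × n) :
    entriesK K φ (a ⊗ₜ[ℤ] r) p = a * (φ r p.1 p.2 : K) := by
  show (TensorProduct.piScalarRight ℤ K K (n × n)) (a ⊗ₜ[ℤ] entries φ r) p = _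
  rw [TensorProduct.piScalarRight_apply, TensorProduct.piScalarRightHom_tmul]
  show (φ r p.1 p.2) • a = _
  rw [zsmul_eq_mul, mul_comm]

/-- the integral matrices, with entries cast to `K`. -/
def matK (K : Type*) [Field K] (φ : R →+* Matrix n n ℤ) : R →ₐ[ℤ] Matrix n n K :=
  ((Int.castRingHom K).mapMatrix.comp φ).toIntAlgHom

omit [CharZero K] in
theorem matK_apply (φ : R →+* Matrix n n ℤ) (r : R) :
    matK K φ r = (φ r).map (Int.cast : ℤ → K) := rfl

/-- `K ⊗ R → M_n(K)`, `a ⊗ r ↦ a • φ r`. -/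
def thetaM (K : Type*) [Field K] (φ : R →+* Matrix n n ℤ) : K ⊗[ℤ] R →ₐ[K] Matrix n n K :=
  Algebra.TensorProduct.lift (Algebra.ofId K (Matrix n n K)) (matK K φ)
    (by
      intro a x
      rw [Algebra.ofId_apply]
      exact Algebra.commute_algebraMap_left a _)

omit [CharZero K] in
theorem thetaM_tmul (φ : R →+* Matrix n n ℤ) (a : K) (r : R) :
    thetaM K φ (a ⊗ₜ[ℤ] r) = a • (φ r).map (Int.cast : ℤ → K) := by
  rw [thetaM, Algebra.TensorProduct.lift_tmul, Algebra.ofId_apply, matK_apply,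
    Algebra.algebraMap_eq_smul_one, smul_mul_assoc, one_mul]

omit [CharZero K] in
theorem thetaM_apply_eq_entriesK (φ : R →+* Matrix n n ℤ) (x : K ⊗[ℤ] R) (i j : n) :
    thetaM K φ x i j = entriesK K φ x (i, j) := by
  induction x using TensorProduct.induction_on with
  | zero => rw [map_zero, map_zero]; rfl
  | tmul a r =>
    rw [thetaM_tmul, entriesK_tmul, Matrix.smul_apply, Matrix.map_apply, smul_eq_mul]
  | add x y hx hy => rw [map_add, Matrix.add_apply, hx, hy, map_add]; rfl

theorem thetaM_injective (φ : R →+* Matrix n n ℤ) (hφ : Function.Injective φ) :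
    Function.Injective (thetaM K φ) := by
  intro x y h
  apply entriesK_injective φ hφ
  ext p
  rw [← thetaM_apply_eq_entriesK, ← thetaM_apply_eq_entriesK, h]

/-- the character `a ⊗ r ↦ a * χ r` of `K ⊗ R`. -/
def chiK (χ : R →+* K) : K ⊗[ℤ] R →ₐ[K] K :=
  Algebra.TensorProduct.lift (AlgHom.id K K) χ.toIntAlgHom (fun _ _ => Commute.all _ _)

omit [CharZero K] in
theorem chiK_tmul (χ : R →+* K) (a : K) (r : R) : chiK χ (a ⊗ₜ[ℤ] r) = a * χ r := by
  rw [chiK, Algebra.TensorProduct.lift_tmul]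
  rfl

/-- **J4 EIG, matrix form**: a character `χ : R →+* K` (`K` of characteristic zero) of a commutative
ring of integral matrices has an eigenvector in `K^n`. -/
theorem exists_eigenvector_matrix (φ : R →+* Matrix n n ℤ) (hφ : Function.Injective φ)
    (χ : R →+* K) :
    ∃ v : n → K, v ≠ 0 ∧ ∀ r : R, ((φ r).map (Int.cast : ℤ → K)) *ᵥ v = χ r • v := by
  have : Module.Finite ℤ R := Module.Finite.of_injective (entries φ) (entries_injective φ hφ)
  obtain ⟨v, hv, h⟩ := exists_eigenvector_of_algHom (K := K) (B := K ⊗[ℤ] R) (M := n → K)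
    ((Matrix.toLinAlgEquiv' : Matrix n n K ≃ₐ[K] Module.End K (n → K)).toAlgHom.comp
      (thetaM K φ))
    ((Matrix.toLinAlgEquiv' : Matrix n n K ≃ₐ[K] Module.End K (n → K)).injective.comp
      (thetaM_injective φ hφ)) (chiK χ)
  refine ⟨v, hv, fun r => ?_⟩
  have h1 := h ((1 : K) ⊗ₜ[ℤ] r)
  rw [chiK_tmul, one_mul] at h1
  rw [← h1]
  show _ = Matrix.toLinAlgEquiv' (thetaM K φ ((1 : K) ⊗ₜ[ℤ] r)) v
  rw [thetaM_tmul, one_smul, Matrix.toLinAlgEquiv'_apply]

end MatrixForm

/-! ### finite free `ℤ`-modules -/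

section ModuleForm

variable {R : Type*} [CommRing R] {Λ : Type*} [AddCommGroup Λ]
variable {K : Type*} [Field K] [CharZero K]

/-- **J4 EIG, basis form**: `Λ` with a finite `ℤ`-basis `b`, `ρ : R →+* End_ℤ Λ` injective (a faithful
action of the commutative ring `R`), `χ : R →+* K` a character with values in a field of
characteristic zero.  Then there is a `χ`-eigenvector in `K ⊗ Λ`. -/
theorem exists_eigenvector_of_basis {n : Type*} [Fintype n] [DecidableEq n]
    (b : Module.Basis n ℤ Λ) (ρ : R →+* Module.End ℤ Λ) (hρ : Function.Injective ρ)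
    (χ : R →+* K) :
    ∃ v : K ⊗[ℤ] Λ, v ≠ 0 ∧ ∀ r : R, (ρ r).baseChange K v = χ r • v := by
  let φ : R →+* Matrix n n ℤ :=
    ((LinearMap.toMatrixAlgEquiv b : Module.End ℤ Λ ≃ₐ[ℤ] Matrix n n ℤ) :
      Module.End ℤ Λ →+* Matrix n n ℤ).comp ρ
  have hφ : Function.Injective φ := (LinearMap.toMatrixAlgEquiv b).injective.comp hρ
  obtain ⟨w, hw, h⟩ := exists_eigenvector_matrix (K := K) φ hφ χ
  let bK : Module.Basis n K (K ⊗[ℤ] Λ) := Algebra.TensorProduct.basis K b
  refine ⟨bK.equivFun.symm w, ?_, fun r => ?_⟩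
  · intro h0
    apply hw
    have h1 := congrArg bK.equivFun h0
    rwa [LinearEquiv.apply_symm_apply, map_zero] at h1
  · apply bK.equivFun.injective
    rw [map_smul, LinearEquiv.apply_symm_apply, ← h r]
    have h2 := LinearMap.toMatrix_mulVec_repr bK bK ((ρ r).baseChange K) (bK.equivFun.symm w)
    have h3 : (bK.repr (bK.equivFun.symm w) : n → K) = w := by
      have := bK.equivFun.apply_symm_apply w
      exact this
    rw [h3, LinearMap.toMatrix_baseChange] at h2
    exact h2.symm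

/-- **J4 EIG, module form**: the same for a finite free `ℤ`-module `Λ`. -/
theorem exists_eigenvector_baseChange [Module.Free ℤ Λ] [Module.Finite ℤ Λ]
    (ρ : R →+* Module.End ℤ Λ) (hρ : Function.Injective ρ) (χ : R →+* K) :
    ∃ v : K ⊗[ℤ] Λ, v ≠ 0 ∧ ∀ r : R, (ρ r).baseChange K v = χ r • v := by
  classical
  exact exists_eigenvector_of_basis (Module.Free.chooseBasis ℤ Λ) ρ hρ χ

/-- the `χ`-eigenspace of `K ⊗ Λ`. -/
def eigenspace (ρ : R →+* Module.End ℤ Λ) (χ : R →+* K) : Submodule K (K ⊗[ℤ] Λ) where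
  carrier := {v | ∀ r : R, (ρ r).baseChange K v = χ r • v}
  add_mem' := by
    intro v w hv hw r
    rw [map_add, hv r, hw r, smul_add]
  zero_mem' := by
    intro r
    rw [map_zero, smul_zero]
  smul_mem' := by
    intro c v hv r
    rw [map_smul, hv r, smul_comm]

omit [CharZero K] in
theorem mem_eigenspace_iff (ρ : R →+* Module.End ℤ Λ) (χ : R →+* K) (v : K ⊗[ℤ] Λ) :
    v ∈ eigenspace ρ χ ↔ ∀ r : R, (ρ r).baseChange K v = χ r • v := Iff.rfl

/-- **`W := (Λ ⊗ K)[χ] ≠ 0`.** -/
theorem eigenspace_ne_bot [Module.Free ℤ Λ] [Module.Finite ℤ Λ]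
    (ρ : R →+* Module.End ℤ Λ) (hρ : Function.Injective ρ) (χ : R →+* K) :
    eigenspace ρ χ ≠ ⊥ := by
  obtain ⟨v, hv, h⟩ := exists_eigenvector_baseChange ρ hρ χ
  intro hbot
  apply hv
  have : v ∈ eigenspace ρ χ := h
  rw [hbot] at this
  exact (Submodule.mem_bot K).mp this

end ModuleForm

end Fermat.Agent.ES.GAL.EigenExists10
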