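/-
Program J, leaf (GEN-CHEB), abstract part (helper23).

Pure Mathlib.  A finite cyclic group `G`, a family of "primes" `ι` with non-negative summable
weights `x s` (`s > 1`), a "Frobenius" map `τ : ι → G` and a set `S` of good primes.  If for every
subgroup `H` the weighted sum over `{p ∈ S | τ p ∈ H}` is `log (1 / (s - 1)) / [G : H] + O(1)` on
`(1, 2]`, then some `p ∈ S` has `τ p` a generator of `G`.

The proof is the inclusion-exclusion over the prime divisors of `#G`: the weighted sum over the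
good primes whose Frobenius generates is `∏_{ℓ ∣ #G} (1 - 1 / ℓ) * log (1 / (s - 1)) + O(1)`.
-/
import Mathlib

set_option autoImplicit false

namespace Fermat.Agent.ES.GAL.ChebAbstract23

open Finset

/-! ### Cyclic groups: the subgroups `{g | g ^ d = 1}` -/

section Group

variable {G : Type*} [Group G] [IsCyclic G]

/-- The subgroup of elements killed by `d` in a cyclic group. -/
def killed (G : Type*) [Group G] [IsCyclic G] (d : ℕ) : Subgroup G where
  carrier := {g | g ^ d = 1}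
  mul_mem' := by
    intro a b ha hb
    have hc : Commute a b := (IsCyclic.commGroup (α := G)).mul_comm a b
    change a ^ d = 1 at ha
    change b ^ d = 1 at hb
    change (a * b) ^ d = 1
    rw [hc.mul_pow, ha, hb, one_mul]
  one_mem' := one_pow d
  inv_mem' := by
    intro a ha
    change a ^ d = 1 at ha
    change a⁻¹ ^ d = 1
    rw [inv_pow, ha, inv_one]

theorem mem_killed {d : ℕ} {g : G} : g ∈ killed G d ↔ g ^ d = 1 := Iff.rfl

theorem index_killed [Finite G] {w : ℕ} (hw : w ∣ Nat.card G) :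
    (killed G (Nat.card G / w)).index = w := by
  let _ : CommGroup G := IsCyclic.commGroup
  have hn0 : 0 < Nat.card G := Nat.card_pos
  have hw0 : 0 < w := Nat.pos_of_dvd_of_pos hw hn0
  have he : killed G (Nat.card G / w) = (powMonoidHom (Nat.card G / w) : G →* G).ker := by
    ext g
    rw [mem_killed, MonoidHom.mem_ker, powMonoidHom_apply]
  rw [he, IsCyclic.index_powMonoidHom_ker]
  have hgcd : (Nat.card G).gcd (Nat.card G / w) = Nat.card G / w :=
    Nat.gcd_eq_right (Nat.div_dvd_of_dvd hw)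
  rw [hgcd]
  exact Nat.div_div_self hw hn0.ne'

omit [IsCyclic G] in
/-- Generator criterion. -/
theorem zpowers_eq_top_of_forall [Finite G] {g : G}
    (h : ∀ ℓ ∈ (Nat.card G).primeFactors, g ^ (Nat.card G / ℓ) ≠ 1) :
    Subgroup.zpowers g = ⊤ := by
  have hn0 : 0 < Nat.card G := Nat.card_pos
  have ho : orderOf g = Nat.card G :=
    orderOf_eq_of_pow_and_pow_div_prime hn0 pow_card_eq_one'
      (fun p hp hpn => h p (Nat.mem_primeFactors.mpr ⟨hp, hpn, hn0.ne'⟩))
  apply Subgroup.eq_top_of_card_eq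
  rw [Nat.card_zpowers, ho]

omit [IsCyclic G] in
/-- Being killed by all `n / ℓ`, `ℓ ∈ t`, is being killed by `n / ∏ t`. -/
theorem forall_pow_eq_one_iff [Finite G] {t : Finset ℕ} (ht : t ⊆ (Nat.card G).primeFactors)
    (g : G) :
    (∀ ℓ ∈ t, g ^ (Nat.card G / ℓ) = 1) ↔ g ^ (Nat.card G / ∏ ℓ ∈ t, ℓ) = 1 := by
  have hn0 : 0 < Nat.card G := Nat.card_pos
  have ho : orderOf g ∣ Nat.card G := orderOf_dvd_natCard g
  have hprime : ∀ ℓ ∈ t, Prime ℓ := fun ℓ hℓ =>
    Nat.prime_iff.mp (Nat.prime_of_mem_primeFactors (ht hℓ))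
  have hdvd : ∀ ℓ ∈ t, ℓ ∣ Nat.card G := fun ℓ hℓ => Nat.dvd_of_mem_primeFactors (ht hℓ)
  have hP : (∏ ℓ ∈ t, ℓ) ∣ Nat.card G := Finset.prod_primes_dvd _ hprime hdvd
  have key : ∀ w : ℕ, w ∣ Nat.card G → (g ^ (Nat.card G / w) = 1 ↔ w ∣ Nat.card G / orderOf g) := by
    intro w hw
    rw [← orderOf_dvd_iff_pow_eq_one, Nat.dvd_div_iff_mul_dvd hw, Nat.dvd_div_iff_mul_dvd ho,
      mul_comm]
  rw [key _ hP]
  constructor
  · intro h
    exact Finset.prod_primes_dvd _ hprime (fun ℓ hℓ => (key ℓ (hdvd ℓ hℓ)).mp (h ℓ hℓ))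
  · intro h ℓ hℓ
    exact (key ℓ (hdvd ℓ hℓ)).mpr ((Finset.dvd_prod_of_mem _ hℓ).trans h)

end Group

/-! ### Inclusion-exclusion in a commutative ring -/

theorem prod_one_sub_eq_sum {R κ : Type*} [CommRing R] [DecidableEq κ] (s : Finset κ)
    (a : κ → R) :
    ∏ i ∈ s, (1 - a i) = ∑ t ∈ s.powerset, (-1) ^ #t * ∏ i ∈ t, a i := by
  rw [Finset.prod_sub]
  refine Finset.sum_congr rfl (fun t _ => ?_)
  rw [Finset.prod_const_one, mul_one]

/-! ### Weighted sums over sets -/

section Weights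

variable {ι : Type*}

/-- The sum of the weights `x` over the set `T`. -/
noncomputable def wsum (x : ι → ℝ) (T : Set ι) : ℝ := ∑' p, T.indicator x p

theorem wsum_empty (x : ι → ℝ) : wsum x ∅ = 0 := by
  simp [wsum]

theorem wsum_nonneg {x : ι → ℝ} (hx : ∀ p, 0 ≤ x p) (T : Set ι) : 0 ≤ wsum x T :=
  tsum_nonneg (fun p => Set.indicator_nonneg (fun p _ => hx p) p)

theorem wsum_mono {x : ι → ℝ} (hx : ∀ p, 0 ≤ x p) (hs : Summable x) {T T' : Set ι}
    (h : T ⊆ T') : wsum x T ≤ wsum x T' :=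
  Summable.tsum_le_tsum (fun p => Set.indicator_le_indicator_of_subset h hx p)
    (hs.indicator T) (hs.indicator T')

theorem wsum_union_le {x : ι → ℝ} (hx : ∀ p, 0 ≤ x p) (hs : Summable x) (T T' : Set ι) :
    wsum x (T ∪ T') ≤ wsum x T + wsum x T' := by
  unfold wsum
  rw [← (hs.indicator T).tsum_add (hs.indicator T')]
  refine Summable.tsum_le_tsum (fun p => ?_) (hs.indicator _)
    ((hs.indicator T).add (hs.indicator T'))
  by_cases h1 : p ∈ T <;> by_cases h2 : p ∈ T' <;> simp [h1, h2, hx p]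

end Weights

/-! ### The abstract generator theorem -/

section Main

variable {ι G : Type*} [Group G] [Finite G] [IsCyclic G]

/-- **Abstract generator form of Chebotarev.**  If for every subgroup `H` of the finite cyclic
group `G` the weighted sum over the good primes with Frobenius in `H` is
`log (1 / (s - 1)) / [G : H] + O(1)`, then some good prime has a generating Frobenius. -/
theorem exists_generator (τ : ι → G) (S : Set ι) (x : ℝ → ι → ℝ)
    (hxs : ∀ s, 1 < s → Summable (x s))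
    (key : ∀ H : Subgroup G, ∃ B : ℝ, ∀ s ∈ Set.Ioc (1 : ℝ) 2,
      |(H.index : ℝ) * wsum (x s) {p | p ∈ S ∧ τ p ∈ H} - Real.log (1 / (s - 1))| ≤ B) :
    ∃ p ∈ S, Subgroup.zpowers (τ p) = ⊤ := by
  classical
  set n := Nat.card G with hn
  have hn0 : 0 < n := Nat.card_pos
  set I := n.primeFactors with hI
  choose B hB using key
  -- the subgroups and their indices
  have hPdvd : ∀ t ∈ I.powerset, (∏ ℓ ∈ t, ℓ) ∣ n := by
    intro t ht
    rw [Finset.mem_powerset] at ht
    exact Finset.prod_primes_dvd _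
      (fun ℓ hℓ => Nat.prime_iff.mp (Nat.prime_of_mem_primeFactors (ht hℓ)))
      (fun ℓ hℓ => Nat.dvd_of_mem_primeFactors (ht hℓ))
  have hidx : ∀ t ∈ I.powerset, ((killed G (n / ∏ ℓ ∈ t, ℓ)).index : ℝ) = ∏ ℓ ∈ t, (ℓ : ℝ) := by
    intro t ht
    rw [index_killed (hPdvd t ht), Nat.cast_prod]
  have hPpos : ∀ t ∈ I.powerset, (0 : ℝ) < ∏ ℓ ∈ t, (ℓ : ℝ) := by
    intro t ht
    rw [Finset.mem_powerset] at ht
    exact Finset.prod_pos (fun ℓ hℓ => by
      exact_mod_cast (Nat.prime_of_mem_primeFactors (ht hℓ)).pos)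
  -- constants
  set c : ℝ := ∏ ℓ ∈ I, (1 - 1 / (ℓ : ℝ)) with hc
  have hc0 : 0 < c := by
    refine Finset.prod_pos (fun ℓ hℓ => ?_)
    have h2 : (2 : ℝ) ≤ ℓ := by exact_mod_cast (Nat.prime_of_mem_primeFactors hℓ).two_le
    have : 1 / (ℓ : ℝ) ≤ 1 / 2 := one_div_le_one_div_of_le two_pos h2
    linarith
  set Bt : ℝ := ∑ t ∈ I.powerset, B (killed G (n / ∏ ℓ ∈ t, ℓ)) / ∏ ℓ ∈ t, (ℓ : ℝ) with hBt
  set M : ℝ := (|Bt| + 1) / c with hM
  have hM0 : 0 < M := div_pos (by positivity) hc0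
  have hcM : c * M = |Bt| + 1 := by
    rw [hM, mul_div_cancel₀ _ hc0.ne']
  set s : ℝ := 1 + Real.exp (-M) with hs
  have hs1 : 1 < s := by
    have := Real.exp_pos (-M)
    linarith
  have hs2 : s ≤ 2 := by
    have : Real.exp (-M) ≤ 1 := Real.exp_le_one_iff.mpr (by linarith)
    linarith
  have hlog : Real.log (1 / (s - 1)) = M := by
    rw [hs, add_sub_cancel_left, one_div, ← Real.exp_neg, neg_neg, Real.log_exp]
  have hsum := hxs s hs1
  -- the sets
  set D : Finset ℕ → Set ι := fun t => {p | p ∈ S ∧ τ p ∈ killed G (n / ∏ ℓ ∈ t, ℓ)} with hD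
  set Gen : Set ι := {p | p ∈ S ∧ ∀ ℓ ∈ I, τ p ^ (n / ℓ) ≠ 1} with hGen
  -- the pointwise inclusion-exclusion identity
  have hident : ∀ p, Gen.indicator (x s) p =
      ∑ t ∈ I.powerset, (-1 : ℝ) ^ #t * (D t).indicator (x s) p := by
    intro p
    by_cases hpS : p ∈ S
    · set a : ℕ → ℝ := fun ℓ => if τ p ^ (n / ℓ) = 1 then 1 else 0 with ha
      have h1 : Gen.indicator (x s) p = (∏ ℓ ∈ I, (1 - a ℓ)) * x s p := by
        by_cases hg : p ∈ Gen
        · rw [Set.indicator_of_mem hg]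
          have : ∏ ℓ ∈ I, (1 - a ℓ) = 1 := by
            refine Finset.prod_eq_one (fun ℓ hℓ => ?_)
            rw [ha]
            simp only
            rw [if_neg (hg.2 ℓ hℓ), sub_zero]
          rw [this, one_mul]
        · rw [Set.indicator_of_notMem hg]
          have : ∃ ℓ ∈ I, τ p ^ (n / ℓ) = 1 := by
            by_contra hcon
            push Not at hcon
            exact hg ⟨hpS, hcon⟩
          obtain ⟨ℓ, hℓ, hℓ1⟩ := this
          have : ∏ ℓ ∈ I, (1 - a ℓ) = 0 := by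
            refine Finset.prod_eq_zero hℓ ?_
            rw [ha]
            simp only
            rw [if_pos hℓ1, sub_self]
          rw [this, zero_mul]
      have h2 : ∀ t ∈ I.powerset, (D t).indicator (x s) p = (∏ ℓ ∈ t, a ℓ) * x s p := by
        intro t ht
        have hiff := forall_pow_eq_one_iff (G := G) (Finset.mem_powerset.mp ht) (τ p)
        by_cases hd : p ∈ D t
        · rw [Set.indicator_of_mem hd]
          have hall := hiff.mpr (mem_killed.mp hd.2)
          have : ∏ ℓ ∈ t, a ℓ = 1 := by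
            refine Finset.prod_eq_one (fun ℓ hℓ => ?_)
            rw [ha]
            simp only
            rw [if_pos (hall ℓ hℓ)]
          rw [this, one_mul]
        · rw [Set.indicator_of_notMem hd]
          have : ∃ ℓ ∈ t, τ p ^ (n / ℓ) ≠ 1 := by
            by_contra hcon
            push Not at hcon
            exact hd ⟨hpS, mem_killed.mpr (hiff.mp hcon)⟩
          obtain ⟨ℓ, hℓ, hℓ1⟩ := this
          have : ∏ ℓ ∈ t, a ℓ = 0 := by
            refine Finset.prod_eq_zero hℓ ?_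
            rw [ha]
            simp only
            rw [if_neg hℓ1]
          rw [this, zero_mul]
      rw [h1, prod_one_sub_eq_sum, Finset.sum_mul]
      refine Finset.sum_congr rfl (fun t ht => ?_)
      rw [h2 t ht, mul_assoc]
    · have hg : p ∉ Gen := fun h => hpS h.1
      rw [Set.indicator_of_notMem hg]
      symm
      refine Finset.sum_eq_zero (fun t _ => ?_)
      have hd : p ∉ D t := fun h => hpS h.1
      rw [Set.indicator_of_notMem hd, mul_zero]
  -- summing
  have hwsum : wsum (x s) Gen = ∑ t ∈ I.powerset, (-1 : ℝ) ^ #t * wsum (x s) (D t) := by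
    unfold wsum
    rw [tsum_congr hident, Summable.tsum_finsetSum]
    · refine Finset.sum_congr rfl (fun t _ => ?_)
      rw [tsum_mul_left]
    · intro t _
      exact (hsum.indicator (D t)).mul_left _
  -- the estimates
  have hest : ∀ t ∈ I.powerset,
      (-1 : ℝ) ^ #t * (M / ∏ ℓ ∈ t, (ℓ : ℝ)) -
        B (killed G (n / ∏ ℓ ∈ t, ℓ)) / ∏ ℓ ∈ t, (ℓ : ℝ) ≤
      (-1 : ℝ) ^ #t * wsum (x s) (D t) := by
    intro t ht
    have h := hB (killed G (n / ∏ ℓ ∈ t, ℓ)) s ⟨hs1, hs2⟩
    rw [hlog, hidx t ht] at h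
    have hP := hPpos t ht
    have h' := abs_le.mp h
    -- |P * Z - M| ≤ B  ⇒  |Z - M / P| ≤ B / P
    have hZ1 : M / (∏ ℓ ∈ t, (ℓ : ℝ)) - B (killed G (n / ∏ ℓ ∈ t, ℓ)) / (∏ ℓ ∈ t, (ℓ : ℝ)) ≤
        wsum (x s) (D t) := by
      rw [← sub_div, div_le_iff₀ hP]
      have := h'.1
      change -B (killed G (n / ∏ ℓ ∈ t, ℓ)) ≤ (∏ ℓ ∈ t, (ℓ : ℝ)) * wsum (x s) (D t) - M at this
      linarith
    have hZ2 : wsum (x s) (D t) ≤
        M / (∏ ℓ ∈ t, (ℓ : ℝ)) + B (killed G (n / ∏ ℓ ∈ t, ℓ)) / (∏ ℓ ∈ t, (ℓ : ℝ)) := by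
      rw [← add_div, le_div_iff₀ hP]
      have := h'.2
      change (∏ ℓ ∈ t, (ℓ : ℝ)) * wsum (x s) (D t) - M ≤ B (killed G (n / ∏ ℓ ∈ t, ℓ)) at this
      linarith
    rcases neg_one_pow_eq_or ℝ #t with h1 | h1 <;> rw [h1] <;> linarith
  have hcsum : c * M = ∑ t ∈ I.powerset, (-1 : ℝ) ^ #t * (M / ∏ ℓ ∈ t, (ℓ : ℝ)) := by
    rw [hc, prod_one_sub_eq_sum, Finset.sum_mul]
    refine Finset.sum_congr rfl (fun t _ => ?_)
    rw [Finset.prod_div_distrib, Finset.prod_const_one]
    ring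
  have hlow : c * M - Bt ≤ wsum (x s) Gen := by
    rw [hwsum, hcsum, hBt, ← Finset.sum_sub_distrib]
    exact Finset.sum_le_sum hest
  have hpos : 0 < wsum (x s) Gen := by
    have := le_abs_self Bt
    linarith
  have hne : Gen.Nonempty := by
    by_contra h
    rw [Set.not_nonempty_iff_eq_empty] at h
    rw [h, wsum_empty] at hpos
    exact lt_irrefl _ hpos
  obtain ⟨p, hp⟩ := hne
  exact ⟨p, hp.1, zpowers_eq_top_of_forall hp.2⟩

end Main

end Fermat.Agent.ES.GAL.ChebAbstract23
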