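/-
Program J, leaf (GEN-CHEB), analytic part (helper23).

`L/K` a finite abelian extension of number fields, `H` a subgroup of `Gal(L/K)`, `m ≠ 0`.
Among the primes `p` of `K` of prime norm not dividing `m * disc L`, those whose Frobenius lies in
`H` carry `log (1 / (s - 1)) / [G : H] + O(1)` of the prime zeta function (`key_bound`).  Both
inequalities come from the split-prime estimates of `CFT/SplitPrimes` and `CFT/NotAllSplit` applied
to the fixed field of `H`; no `L`-functions.

Combined with the abstract inclusion-exclusion of `ChebAbstract23` this gives the generator form of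
Chebotarev's theorem for cyclic extensions: `exists_mem_frobSet_zpowers_eq_top`, and for an
arbitrary Galois extension and an arbitrary `σ`: `exists_mem_frobSet_zpowers_eq`.
-/
import Mathlib
import Fermat.Agent.CFT.NotAllSplit
import Fermat.Agent.CFT.ArtinSymbol
import Fermat.Agent.CFT.FrobFunct
import Fermat.Agent.PT.GLOB.FrobGenerate19
import Fermat.Agent.ES.GAL.ChebAbstract23

set_option autoImplicit false
set_option linter.unusedSectionVars false

open IsDedekindDomain Ideal NumberField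
open scoped Pointwise
open Fermat.Agent.CFT.C1ClassDefs Fermat.Agent.CFT.SplitPrimes Fermat.Agent.CFT.NotAllSplit
  Fermat.Agent.CFT.ArtinSymbol Fermat.Agent.PT.GLOB.FrobGenerate19
  Fermat.Agent.ES.GAL.ChebAbstract23

namespace Fermat.Agent.ES.GAL.ChebDensity23

/-! ### Frobenius elements and intermediate fields -/

section Bridge

variable {K L : Type} [Field K] [Field L] [NumberField K] [NumberField L] [Algebra K L]
  [IsGalois K L]

/-- The norm of the prime below `P` lies in `P`. -/
theorem natCast_absNorm_under_mem (P : Ideal (𝓞 L)) :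
    ((absNorm (P.under (𝓞 K)) : ℕ) : 𝓞 L) ∈ P := by
  have hℓq : ((absNorm (P.under (𝓞 K)) : ℕ) : 𝓞 K) ∈ P.under (𝓞 K) := Ideal.absNorm_mem _
  have : algebraMap (𝓞 K) (𝓞 L) ((absNorm (P.under (𝓞 K)) : ℕ) : 𝓞 K) ∈ P := by
    rw [Ideal.under_def, Ideal.mem_comap] at hℓq
    exact hℓq
  simpa using this

theorem not_dvd_discr_of_not_dvd_mul {ℓ m : ℕ} (h : ¬ ℓ ∣ m * (discr L).natAbs) :
    ¬ (ℓ : ℤ) ∣ discr L := by
  intro h'
  apply h
  have : ℓ ∣ (discr L).natAbs := by
    rw [← Int.natCast_dvd_natCast, Int.natCast_natAbs]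
    exact (dvd_abs _ _).mpr h'
  exact this.mul_left m

/-- Restriction to an intermediate field is trivial iff the automorphism fixes it. -/
theorem restrictNormal_eq_one_iff (F : IntermediateField K L) [IsGalois K F] (σ : L ≃ₐ[K] L) :
    σ.restrictNormal F = 1 ↔ σ ∈ F.fixingSubgroup := by
  rw [IntermediateField.mem_fixingSubgroup_iff]
  constructor
  · intro h x hx
    have h1 : algebraMap F L (σ.restrictNormal F ⟨x, hx⟩) = σ (algebraMap F L ⟨x, hx⟩) :=
      AlgEquiv.restrictNormal_commutes σ F ⟨x, hx⟩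
    rw [h] at h1
    exact h1.symm
  · intro h
    ext x
    have h1 : algebraMap F L (σ.restrictNormal F x) = σ (algebraMap F L x) :=
      AlgEquiv.restrictNormal_commutes σ F x
    have h2 : σ (algebraMap F L x) = algebraMap F L x := h x x.2
    have h3 : algebraMap F L (σ.restrictNormal F x) = algebraMap F L x := h1.trans h2
    exact_mod_cast (algebraMap F L).injective h3

/-- At a prime of `L` over a rational prime not dividing `disc L`, the Frobenius of an
intermediate Galois field is the restriction of the Frobenius of `L`. -/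
theorem eq_restrictNormal_of_isArithFrobAt (F : IntermediateField K L) [IsGalois K F]
    {P : Ideal (𝓞 L)} [P.IsPrime] (hqn : (absNorm (P.under (𝓞 K))).Prime)
    (hd : ¬ ((absNorm (P.under (𝓞 K)) : ℕ) : ℤ) ∣ discr L)
    {τ : L ≃ₐ[K] L} (hτ : IsArithFrobAt (𝓞 K) τ P)
    {σ : F ≃ₐ[K] F} (hσ : IsArithFrobAt (𝓞 K) σ (P.under (𝓞 F))) :
    σ = τ.restrictNormal F := by
  have hKK : (P.under (𝓞 F)).under (𝓞 K) = P.under (𝓞 K) := Ideal.under_under _
  have hℓP' : ((absNorm (P.under (𝓞 K)) : ℕ) : 𝓞 F) ∈ P.under (𝓞 F) := by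
    have := natCast_absNorm_under_mem (K := K) (P.under (𝓞 F))
    rwa [hKK] at this
  have hdF : ¬ ((absNorm (P.under (𝓞 K)) : ℕ) : ℤ) ∣ discr F :=
    fun h => hd (h.trans (discr_dvd_discr F L))
  have hin : (P.under (𝓞 F)).inertia (F ≃ₐ[K] F) = ⊥ :=
    inertia_eq_bot_of_not_dvd_discr (P.under (𝓞 F)) hqn hℓP' hdF
  exact isArithFrobAt_unique hin hσ
    (Fermat.Agent.CFT.FrobFunct.isArithFrobAt_restrictNormal (K := K) (L := F) (M := L) hτ)

/-- The identity is a Frobenius at a prime of relative degree one. -/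
theorem isArithFrobAt_one_of_absNorm_eq {F : Type} [Field F] [NumberField F] [Algebra K F]
    [IsGalois K F] (𝔓 : Ideal (𝓞 F)) [𝔓.IsPrime] (h0 : 𝔓 ≠ ⊥)
    (h : absNorm 𝔓 = absNorm (𝔓.under (𝓞 K))) :
    IsArithFrobAt (𝓞 K) (1 : F ≃ₐ[K] F) 𝔓 := by
  intro x
  change (1 : F ≃ₐ[K] F) • x - x ^ Nat.card (𝓞 K ⧸ 𝔓.under (𝓞 K)) ∈ 𝔓
  rw [← Fermat.Agent.CFT.NotAllSplit10.absNorm_eq_card, ← h,
    Fermat.Agent.CFT.NotAllSplit10.absNorm_eq_card, one_smul, ← Ideal.Quotient.eq, map_pow]
  have : 𝔓.IsMaximal := Ring.DimensionLEOne.maximalOfPrime h0 inferInstance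
  let _ : Field (𝓞 F ⧸ 𝔓) := Ideal.Quotient.field _
  have : Finite (𝓞 F ⧸ 𝔓) := Ideal.finiteQuotientOfFreeOfNeBot 𝔓 h0
  let _ : Fintype (𝓞 F ⧸ 𝔓) := Fintype.ofFinite _
  rw [Nat.card_eq_fintype_card]
  exact (FiniteField.pow_card _).symm

end Bridge

/-! ### The abelian case: Frobenius in a subgroup versus splitting in its fixed field -/

section Abelian

variable (K L : Type) [Field K] [Field L] [NumberField K] [NumberField L] [Algebra K L]
  [IsGalois K L] [IsMulCommutative (L ≃ₐ[K] L)]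

/-- The good primes of `K`: prime norm not dividing `m * disc L`. -/
abbrev good (m : ℕ) : Set (HeightOneSpectrum (𝓞 K)) := goodPrimes K (m * (discr L).natAbs)

/-- The good primes with Frobenius in `H`. -/
def frobIn (m : ℕ) (H : Subgroup (L ≃ₐ[K] L)) : Set (HeightOneSpectrum (𝓞 K)) :=
  {p | p ∈ good K L m ∧ frobOf K L p.asIdeal ∈ H}

variable {K L}

/-- Frobenius fixing `F` implies completely split in `F`. -/
theorem frobIn_subset_splitPrimes (m : ℕ) (F : IntermediateField K L) [IsGalois K F] :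
    frobIn K L m F.fixingSubgroup ⊆ splitPrimes K F := by
  classical
  rintro p ⟨hpg, hpH⟩
  obtain ⟨P, hP, hPq⟩ := exists_prime_over K L p.asIdeal
  have hqn : (absNorm (P.under (𝓞 K))).Prime := by rw [hPq]; exact hpg.1
  have hd : ¬ ((absNorm (P.under (𝓞 K)) : ℕ) : ℤ) ∣ discr L := by
    rw [hPq]; exact not_dvd_discr_of_not_dvd_mul hpg.2
  have hτ : IsArithFrobAt (𝓞 K) (frobOf K L p.asIdeal) P :=
    isArithFrobAt_frobOf p.isPrime p.ne_bot P hPq
  have hres : (frobOf K L p.asIdeal).restrictNormal F = 1 :=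
    (restrictNormal_eq_one_iff F _).mpr hpH
  have hover : (P.under (𝓞 F)).LiesOver p.asIdeal :=
    ⟨by rw [← hPq]; exact (Ideal.under_under (A := 𝓞 K) (B := 𝓞 F) P).symm⟩
  exact ncard_primesOver_eq_of_frob_trivial p.asIdeal p.ne_bot (P.under (𝓞 F))
    (fun σ hσ => (eq_restrictNormal_of_isArithFrobAt F hqn hd hτ hσ).trans hres)

/-- A good prime with a degree one prime above it in `F` has Frobenius fixing `F`. -/
theorem good_inter_degOnePrimes_subset (m : ℕ) (F : IntermediateField K L) [IsGalois K F] :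
    good K L m ∩ degOnePrimes K F ⊆ frobIn K L m F.fixingSubgroup := by
  classical
  rintro p ⟨hpg, 𝔓, h𝔓p, h𝔓N⟩
  refine ⟨hpg, ?_⟩
  obtain ⟨P, hP, hP𝔓⟩ := exists_prime_over F L 𝔓.asIdeal
  have hPq : P.under (𝓞 K) = p.asIdeal := by
    rw [← h𝔓p, ← hP𝔓]
    exact (Ideal.under_under (A := 𝓞 K) (B := 𝓞 F) P).symm
  have hqn : (absNorm (P.under (𝓞 K))).Prime := by rw [hPq]; exact hpg.1
  have hd : ¬ ((absNorm (P.under (𝓞 K)) : ℕ) : ℤ) ∣ discr L := by
    rw [hPq]; exact not_dvd_discr_of_not_dvd_mul hpg.2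
  have hτ : IsArithFrobAt (𝓞 K) (frobOf K L p.asIdeal) P :=
    isArithFrobAt_frobOf p.isPrime p.ne_bot P hPq
  have h1 : IsArithFrobAt (𝓞 K) (1 : F ≃ₐ[K] F) (P.under (𝓞 F)) := by
    rw [hP𝔓]
    exact isArithFrobAt_one_of_absNorm_eq 𝔓.asIdeal 𝔓.ne_bot (by rw [h𝔓p]; exact h𝔓N)
  have hres := eq_restrictNormal_of_isArithFrobAt F hqn hd hτ h1
  exact (restrictNormal_eq_one_iff F _).mp hres.symm

end Abelian

/-! ### The key estimate -/

section Key

variable (K L : Type) [Field K] [Field L] [NumberField K] [NumberField L] [Algebra K L]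
  [IsGalois K L] [IsMulCommutative (L ≃ₐ[K] L)]

omit [IsGalois K L] [IsMulCommutative (L ≃ₐ[K] L)] [Algebra K L] [Field L] [NumberField L] in
theorem primeIdealZetaSum_eq_wsum (T : Set (HeightOneSpectrum (𝓞 K))) (s : ℝ) :
    T.primeIdealZetaSum s = wsum (xP K s) T := by
  have h1 : T.primeIdealZetaSum s = ∑' p : T, xP K s p.1 := rfl
  rw [h1]
  exact _root_.tsum_subtype T (xP K s)

omit [IsGalois K L] [IsMulCommutative (L ≃ₐ[K] L)] [Algebra K L] [Field L] [NumberField L] in
theorem primeZeta_eq_wsum_add (T : Set (HeightOneSpectrum (𝓞 K))) {s : ℝ} (hs : 1 < s) :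
    primeZeta K s = wsum (xP K s) T + wsum (xP K s) Tᶜ := by
  unfold wsum primeZeta
  rw [← ((summable_xP K hs).indicator T).tsum_add ((summable_xP K hs).indicator Tᶜ)]
  refine tsum_congr (fun p => ?_)
  exact (congrFun (Set.indicator_self_add_compl T (xP K s)) p).symm

/-- **Key estimate.**  The good primes with Frobenius in `H` carry
`log (1 / (s - 1)) / [G : H] + O(1)`. -/
theorem key_bound (m : ℕ) (hm : m ≠ 0) (H : Subgroup (L ≃ₐ[K] L)) :
    ∃ B : ℝ, ∀ s ∈ Set.Ioc (1 : ℝ) 2,
      |(H.index : ℝ) * wsum (xP K s) (frobIn K L m H) - Real.log (1 / (s - 1))| ≤ B := by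
  classical
  have hN : H.Normal := ⟨fun n hn g => by
    rw [mul_comm' g n, mul_inv_cancel_right]; exact hn⟩
  obtain ⟨F, hFG, hfix⟩ : ∃ F : IntermediateField K L, IsGalois K F ∧ F.fixingSubgroup = H :=
    ⟨IntermediateField.fixedField H, IsGalois.of_fixedField_normal_subgroup H,
      IntermediateField.fixingSubgroup_fixedField H⟩
  subst hfix
  have hidx : (F.fixingSubgroup.index : ℝ) = (Module.finrank K F : ℝ) := by
    rw [IntermediateField.finrank_eq_fixingSubgroup_index]
  obtain ⟨B1, hB1⟩ := primeZeta_bound F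
  obtain ⟨B2, hB2⟩ := log_le_degOnePrimes K F
  have hdL : (discr L).natAbs ≠ 0 := Int.natAbs_ne_zero.mpr (discr_ne_zero L)
  have hm' : m * (discr L).natAbs ≠ 0 := Nat.mul_ne_zero hm hdL
  set C : ℝ := Module.finrank ℚ K * primeZeta ℚ 2 +
    (smallPrimes K (m * (discr L).natAbs)).ncard with hC
  refine ⟨|B1| + |B2| + Module.finrank K F * |C|, fun s hs => ?_⟩
  have hx0 : ∀ p, 0 ≤ xP K s p := fun p => (xP_pos K s p).le
  have hsum : Summable (xP K s) := summable_xP K hs.1
  have hn0 : (0 : ℝ) ≤ Module.finrank K F := Nat.cast_nonneg _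
  -- upper bound
  have hup : (Module.finrank K F : ℝ) * wsum (xP K s) (frobIn K L m F.fixingSubgroup) ≤
      Real.log (1 / (s - 1)) + B1 := by
    have h1 := mul_primeIdealZetaSum_le_primeZeta K F _ (frobIn_subset_splitPrimes m F) hs.1
    rw [primeIdealZetaSum_eq_wsum] at h1
    have h2 := (abs_le.mp (hB1 s hs)).2
    linarith
  -- lower bound
  have h3 : wsum (xP K s) (good K L m)ᶜ ≤ C := by
    have := primeZeta_le_goodPrimes K hm' hs.1
    rw [primeIdealZetaSum_eq_wsum, primeZeta_eq_wsum_add K (good K L m) hs.1] at this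
    linarith
  have h2 : wsum (xP K s) (degOnePrimes K F) ≤
      wsum (xP K s) (frobIn K L m F.fixingSubgroup) + wsum (xP K s) (good K L m)ᶜ := by
    refine (wsum_mono hx0 hsum ?_).trans (wsum_union_le hx0 hsum _ _)
    intro p hp
    by_cases hg : p ∈ good K L m
    · exact Or.inl (good_inter_degOnePrimes_subset m F ⟨hg, hp⟩)
    · exact Or.inr hg
  have hlow : Real.log (1 / (s - 1)) - B2 ≤
      (Module.finrank K F : ℝ) * wsum (xP K s) (frobIn K L m F.fixingSubgroup) +
        Module.finrank K F * C := by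
    have h1 := hB2 s hs
    rw [primeIdealZetaSum_eq_wsum] at h1
    have h4 : (Module.finrank K F : ℝ) * wsum (xP K s) (degOnePrimes K F) ≤
        Module.finrank K F * (wsum (xP K s) (frobIn K L m F.fixingSubgroup) + C) :=
      mul_le_mul_of_nonneg_left (by linarith) hn0
    rw [mul_add] at h4
    linarith
  have hCabs : (Module.finrank K F : ℝ) * C ≤ Module.finrank K F * |C| :=
    mul_le_mul_of_nonneg_left (le_abs_self C) hn0
  have hnC : (0 : ℝ) ≤ Module.finrank K F * |C| := mul_nonneg hn0 (abs_nonneg C)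
  rw [hidx, abs_le]
  constructor
  · linarith [neg_abs_le B2, abs_nonneg B1, le_abs_self B2]
  · linarith [le_abs_self B1, abs_nonneg B2]

end Key

/-! ### Generator form of Chebotarev, number field version -/

section Generator

variable (K L : Type) [Field K] [Field L] [NumberField K] [NumberField L] [Algebra K L]
  [IsGalois K L]

/-- **Cyclic case.**  In a cyclic extension `L/K` of number fields, for every `m ≠ 0` some
Frobenius element at an unramified prime of prime norm not dividing `m` generates `Gal(L/K)`. -/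
theorem exists_mem_frobSet_zpowers_eq_top [IsCyclic (L ≃ₐ[K] L)] (m : ℕ) (hm : m ≠ 0) :
    ∃ τ ∈ frobSet K L m, Subgroup.zpowers τ = ⊤ := by
  classical
  have hcomm : IsMulCommutative (L ≃ₐ[K] L) :=
    ⟨⟨(IsCyclic.commGroup (α := L ≃ₐ[K] L)).mul_comm⟩⟩
  obtain ⟨p, hpg, hgen⟩ := exists_generator (G := L ≃ₐ[K] L)
    (fun p : HeightOneSpectrum (𝓞 K) => frobOf K L p.asIdeal) (good K L m) (fun s => xP K s)
    (fun s hs => summable_xP K hs) (fun H => key_bound K L m hm H)
  refine ⟨frobOf K L p.asIdeal, ?_, hgen⟩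
  obtain ⟨P, hP, hPq⟩ := exists_prime_over K L p.asIdeal
  have hqn : (absNorm (P.under (𝓞 K))).Prime := by rw [hPq]; exact hpg.1
  have hqm : ¬ absNorm (P.under (𝓞 K)) ∣ m * (discr L).natAbs := by rw [hPq]; exact hpg.2
  obtain ⟨σ, hσmem, hσ⟩ := arithFrobAt_mem_frobSet K L (m := m) P hqn hqm
  have hin : P.inertia (L ≃ₐ[K] L) = ⊥ :=
    inertia_eq_bot_of_not_dvd_discr P hqn (natCast_absNorm_under_mem P)
      (not_dvd_discr_of_not_dvd_mul hqm)
  have : σ = frobOf K L p.asIdeal :=
    eq_frobOf_of_isArithFrobAt p.isPrime p.ne_bot hPq hin hσ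
  rwa [← this]

/-- **Generator form of Chebotarev's theorem** for number fields: for `L/K` Galois,
`σ ∈ Gal(L/K)` and `m ≠ 0`, there is a Frobenius element `τ` (at an unramified prime of `L` over a
prime of `K` of prime norm not dividing `m`) generating the same cyclic subgroup as `σ`. -/
theorem exists_mem_frobSet_zpowers_eq (σ : L ≃ₐ[K] L) (m : ℕ) (hm : m ≠ 0) :
    ∃ τ ∈ frobSet K L m, Subgroup.zpowers τ = Subgroup.zpowers σ := by
  classical
  obtain ⟨F, hfix⟩ : ∃ F : IntermediateField K L, F.fixingSubgroup = Subgroup.zpowers σ :=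
    ⟨_, IntermediateField.fixingSubgroup_fixedField _⟩
  have hcyc : IsCyclic (L ≃ₐ[F] L) := by
    have h1 : IsCyclic F.fixingSubgroup := by
      rw [hfix]
      infer_instance
    exact isCyclic_of_surjective (F.fixingSubgroupEquiv : F.fixingSubgroup →* (L ≃ₐ[F] L))
      F.fixingSubgroupEquiv.surjective
  have hdL : (discr L).natAbs ≠ 0 := Int.natAbs_ne_zero.mpr (discr_ne_zero L)
  have hm' : m * (discr L).natAbs ≠ 0 := Nat.mul_ne_zero hm hdL
  obtain ⟨τ', hτ'mem, hτ'⟩ := exists_mem_frobSet_zpowers_eq_top F L (m * (discr L).natAbs) hm'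
  refine ⟨τ'.restrictScalars K, restrictScalars_mem_frobSet K L F m hτ'mem, ?_⟩
  rw [← hfix]
  have hmemF : ∀ g : L ≃ₐ[F] L, g.restrictScalars K ∈ F.fixingSubgroup := by
    intro g
    rw [IntermediateField.mem_fixingSubgroup_iff]
    intro x hx
    exact g.commutes ⟨x, hx⟩
  apply le_antisymm
  · rw [Subgroup.zpowers_le]
    exact hmemF τ'
  · intro g hg
    set g' : L ≃ₐ[F] L := F.fixingSubgroupEquiv ⟨g, hg⟩ with hg'
    have hres : g'.restrictScalars K = g := by
      ext x; rfl
    have hmem : g' ∈ Subgroup.zpowers τ' := by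
      rw [hτ']; exact Subgroup.mem_top _
    obtain ⟨k, hk⟩ := Subgroup.mem_zpowers_iff.mp hmem
    rw [Subgroup.mem_zpowers_iff]
    refine ⟨k, ?_⟩
    rw [← hres, ← hk]
    ext x
    -- `restrictScalars` commutes with integer powers
    have : ∀ (j : ℤ) (h : L ≃ₐ[F] L), ((h ^ j).restrictScalars K) = (h.restrictScalars K) ^ j := by
      intro j h
      induction j using Int.induction_on with
      | zero => rfl
      | succ i ih =>
        rw [zpow_add_one, zpow_add_one, ← ih]
        rfl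
      | pred i ih =>
        rw [zpow_sub_one, zpow_sub_one, ← ih]
        rfl
    rw [this]

end Generator

end Fermat.Agent.ES.GAL.ChebDensity23
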