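/-
Program J, leaf (GEN-CHEB), `ℚ̄` form (helper23).

For a finite extension `L ⊂ ℚ̄` of `ℚ`, an element `g` of the absolute Galois group and a finite
set `T` of natural numbers there are a prime `p ∉ T`, a valuation subring `A` of `ℚ̄` over `p`, a
Frobenius element `φ` at `A` and an exponent `j` with `φ ^ j = g` on `L`
(`exists_frobenius_pow_eq_on`).  For `L` Galois: `⟨φ|_L⟩ = ⟨σ⟩` for any given `σ ∈ Gal(L/ℚ)`
(`exists_frobenius_zpowers_eq`).

Input: the number field form `ChebDensity23.exists_mem_frobSet_zpowers_eq` and the existence of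
Frobenius elements at every valuation subring (`FrobFacts12.exists_isFrobeniusAt_of`).
-/
import Mathlib
import Fermat.Agent.ES.GAL.ChebDensity23
import Fermat.Agent.ES.FROB.FrobFacts12

set_option autoImplicit false
set_option linter.unusedSectionVars false

open NumberField
open scoped Pointwise
open Fermat.Agent.Lib.FrobeniusExists Fermat.Agent.PT.GLOB.FrobGenerate19

namespace Fermat.Agent.ES.GAL.ChebQbar23

attribute [local instance] isGalois_Qbar isIntegral_Qbar

/-! ### Frobenius elements at a valuation subring -/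

/-- The Frobenius congruence in `ℚ̄`. -/
theorem sub_pow_mem_nonunits {A : ValuationSubring Qbar} {φ : GQ} {p : ℕ}
    (h : A.IsFrobeniusAt φ p) {x : Qbar} (hx : x ∈ A) : φ x - x ^ p ∈ A.nonunits := by
  set g : A.decompositionSubgroup ℚ := ⟨φ, h.mem_decompositionSubgroup⟩ with hg
  set xA : A := ⟨x, hx⟩ with hxA
  have h1 := h.smul_residue_eq (IsLocalRing.residue A xA)
  rw [← IsLocalRing.ResidueField.residue_smul, ← map_pow, ← sub_eq_zero, ← map_sub,
    IsLocalRing.residue_eq_zero_iff, ← ValuationSubring.coe_mem_nonunits_iff] at h1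
  exact h1

/-! ### A valuation subring over a prime of a number field -/

section Place

variable (N : IntermediateField ℚ Qbar) [NumberField N]

/-- The inclusion of the ring of integers of `N` in `ℚ̄`. -/
noncomputable def incl : 𝓞 N →+* Qbar := (algebraMap N Qbar).comp (algebraMap (𝓞 N) N)

theorem incl_injective : Function.Injective (incl N) :=
  (algebraMap N Qbar).injective.comp (RingOfIntegers.coe_injective)

theorem incl_isIntegral (x : 𝓞 N) : IsIntegral ℤ (incl N x) := by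
  have h : IsIntegral ℤ (algebraMap (𝓞 N) N x) := RingOfIntegers.isIntegral_coe x
  exact h.map (IsScalarTower.toAlgHom ℤ N Qbar)

theorem incl_mem (A : ValuationSubring Qbar) (x : 𝓞 N) : incl N x ∈ A :=
  mem_valuationSubring_of_isIntegral A (incl_isIntegral N x)

/-- A valuation subring of `ℚ̄` centred at the maximal ideal `P` of `𝓞 N`. -/
theorem exists_valuationSubring_over (P : Ideal (𝓞 N)) [hP : P.IsMaximal] :
    ∃ A : ValuationSubring Qbar, ∀ x : 𝓞 N, incl N x ∈ A.nonunits ↔ x ∈ P := by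
  classical
  set f := incl N with hf
  set I : Ideal f.range := P.map f.rangeRestrict with hI
  have hsurj : Function.Surjective f.rangeRestrict := f.rangeRestrict_surjective
  have hI1 : I ≠ ⊤ := by
    intro htop
    have h1 : (1 : f.range) ∈ I := by rw [htop]; exact Submodule.mem_top
    rw [hI, Ideal.mem_map_iff_of_surjective _ hsurj] at h1
    obtain ⟨x, hx, hx1⟩ := h1
    have h2 : f x = 1 := congrArg Subtype.val hx1
    have h3 : x = 1 := incl_injective N (by rw [h2, map_one])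
    exact hP.ne_top ((Ideal.eq_top_iff_one P).mpr (h3 ▸ hx))
  obtain ⟨A, -, hA⟩ := Ideal.image_subset_nonunits_valuationSubring I hI1
  refine ⟨A, fun x => ⟨fun hx => ?_, fun hx => ?_⟩⟩
  · by_contra hxP
    obtain ⟨y, i, hi, hyi⟩ := hP.exists_inv hxP
    have hi' : f i ∈ A.nonunits :=
      hA ⟨f.rangeRestrict i, Ideal.mem_map_of_mem _ hi, rfl⟩
    have hv1 : A.valuation (f y * f x) < 1 := by
      rw [map_mul]
      have h1 : A.valuation (f y) ≤ 1 := (A.valuation_le_one_iff _).mpr (incl_mem N A y)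
      have h2 : A.valuation (f x) < 1 := hx
      calc A.valuation (f y) * A.valuation (f x) ≤ 1 * A.valuation (f x) :=
            mul_le_mul_left h1 _
        _ = A.valuation (f x) := one_mul _
        _ < 1 := h2
    have hv2 : A.valuation (f i) < 1 := hi'
    have hsum : A.valuation (f y * f x + f i) < 1 :=
      lt_of_le_of_lt (A.valuation.map_add _ _) (max_lt hv1 hv2)
    have : f y * f x + f i = 1 := by
      rw [← map_mul, ← map_add, hyi, map_one]
    rw [this, map_one] at hsum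
    exact lt_irrefl _ hsum
  · exact hA ⟨f.rangeRestrict x, Ideal.mem_map_of_mem _ hx, rfl⟩

end Place

/-! ### The `ℚ̄` form of the generator theorem -/

section Main

/-- The restriction to `N` of a Frobenius element at `A` is an arithmetic Frobenius at the centre
of `A` on `𝓞 N`. -/
theorem isArithFrobAt_restrict (N : IntermediateField ℚ Qbar) [NumberField N] [IsGalois ℚ N]
    {A : ValuationSubring Qbar} {P : Ideal (𝓞 N)}
    (hAP : ∀ x : 𝓞 N, incl N x ∈ A.nonunits ↔ x ∈ P)
    {φ : GQ} {p : ℕ} (hp : Ideal.absNorm (P.under (𝓞 ℚ)) = p) (hφ : A.IsFrobeniusAt φ p) :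
    IsArithFrobAt (𝓞 ℚ) (AlgEquiv.restrictNormalHom N φ) P := by
  intro x
  change (AlgEquiv.restrictNormalHom N φ) • x - x ^ Nat.card (𝓞 ℚ ⧸ P.under (𝓞 ℚ)) ∈ P
  rw [← Fermat.Agent.CFT.NotAllSplit10.absNorm_eq_card, hp, ← hAP, map_sub, map_pow]
  have : incl N ((AlgEquiv.restrictNormalHom N φ) • x) = φ (incl N x) :=
    AlgEquiv.restrictNormal_commutes φ N (algebraMap (𝓞 N) N x)
  rw [this]
  exact sub_pow_mem_nonunits hφ (incl_mem N A x)

/-- **Generator form of Chebotarev's theorem over `ℚ̄`, Galois level.**  For a finite Galois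
`N ⊂ ℚ̄`, `σ ∈ Gal(N/ℚ)` and a finite set `T`, there are a prime `p ∉ T`, a valuation subring `A`
over `p` and a Frobenius element `φ` at `A` whose restriction to `N` generates the same subgroup
as `σ`. -/
theorem exists_frobenius_zpowers_eq (N : IntermediateField ℚ Qbar) [FiniteDimensional ℚ N]
    [IsGalois ℚ N] (σ : N ≃ₐ[ℚ] N) (T : Finset ℕ) :
    ∃ (p : ℕ) (A : ValuationSubring Qbar) (φ : GQ), p.Prime ∧ p ∉ T ∧ A.LiesOverPrime p ∧
      A.IsFrobeniusAt φ p ∧
      Subgroup.zpowers (AlgEquiv.restrictNormalHom N φ) = Subgroup.zpowers σ := by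
  classical
  have hNF : NumberField N := ⟨⟩
  set m : ℕ := ∏ q ∈ T.filter (· ≠ 0), q with hm
  have hm0 : m ≠ 0 := by
    rw [hm, Finset.prod_ne_zero_iff]
    intro q hq
    exact (Finset.mem_filter.mp hq).2
  obtain ⟨τ, ⟨q, P, hq, hqn, hqm, hP, hPq, hin, hτ⟩, hgen⟩ :=
    Fermat.Agent.ES.GAL.ChebDensity23.exists_mem_frobSet_zpowers_eq ℚ N σ m hm0
  set p := Ideal.absNorm q with hp
  have hP0 : P ≠ ⊥ := by
    rintro rfl
    have hfin : Finite (𝓞 ℚ ⧸ (⊥ : Ideal (𝓞 N)).under (𝓞 ℚ)) := hτ.finite_quotient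
    have hbot : (⊥ : Ideal (𝓞 N)).under (𝓞 ℚ) = ⊥ := by
      rw [Ideal.under_def, Ideal.comap_bot_of_injective _ (FaithfulSMul.algebraMap_injective _ _)]
    rw [hbot] at hfin
    have : Infinite (𝓞 ℚ ⧸ (⊥ : Ideal (𝓞 ℚ))) :=
      Infinite.of_injective _ (RingEquiv.quotientBot (𝓞 ℚ)).symm.injective
    exact not_finite (𝓞 ℚ ⧸ (⊥ : Ideal (𝓞 ℚ)))
  have hPmax : P.IsMaximal := Ring.DimensionLEOne.maximalOfPrime hP0 hP
  obtain ⟨A, hA⟩ := exists_valuationSubring_over N P
  have hpT : p ∉ T := by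
    intro hmem
    apply hqm
    exact Finset.dvd_prod_of_mem _ (Finset.mem_filter.mpr ⟨hmem, hqn.ne_zero⟩)
  have hpP : ((p : ℕ) : 𝓞 N) ∈ P := by
    have := Fermat.Agent.ES.GAL.ChebDensity23.natCast_absNorm_under_mem (K := ℚ) P
    rwa [hPq] at this
  have hAp : A.LiesOverPrime p := by
    have h1 := (hA ((p : ℕ) : 𝓞 N)).mpr hpP
    have h2 : incl N ((p : ℕ) : 𝓞 N) = (p : Qbar) := map_natCast _ _
    rw [h2] at h1
    exact h1
  obtain ⟨φ, hφ⟩ := Fermat.Agent.ES.FROB.FrobFacts12.exists_isFrobeniusAt_of p hqn A hAp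
  refine ⟨p, A, φ, hqn, hpT, hAp, hφ, ?_⟩
  have hτ' : IsArithFrobAt (𝓞 ℚ) (AlgEquiv.restrictNormalHom N φ) P :=
    isArithFrobAt_restrict N hA (by rw [hPq]) hφ
  have : τ = AlgEquiv.restrictNormalHom N φ :=
    Fermat.Agent.CFT.ArtinSymbol.isArithFrobAt_unique hin hτ hτ'
  rw [← this, hgen]

end Main

/-! ### Arbitrary finite level -/

section Level

/-- **Generator form of Chebotarev's theorem over `ℚ̄`, finite level.**  For a finite extension
`L ⊂ ℚ̄` of `ℚ`, `g` in the absolute Galois group and a finite set `T`, there are a prime `p ∉ T`,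
a valuation subring `A` over `p`, a Frobenius element `φ` at `A` and `j : ℕ` with `φ ^ j = g`
on `L`. -/
theorem exists_frobenius_pow_eq_on (L : IntermediateField ℚ Qbar) [FiniteDimensional ℚ L]
    (g : GQ) (T : Finset ℕ) :
    ∃ (p : ℕ) (A : ValuationSubring Qbar) (φ : GQ) (j : ℕ), p.Prime ∧ p ∉ T ∧
      A.LiesOverPrime p ∧ A.IsFrobeniusAt φ p ∧ ∀ x ∈ L, (φ ^ j) x = g x := by
  classical
  obtain ⟨N, hfin, hnorm, hLN⟩ : ∃ N : IntermediateField ℚ Qbar,
      FiniteDimensional ℚ N ∧ Normal ℚ N ∧ L ≤ N :=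
    ⟨IntermediateField.normalClosure ℚ L Qbar, normalClosure.is_finiteDimensional ℚ L Qbar,
      normalClosure.normal ℚ L Qbar, IntermediateField.le_normalClosure L⟩
  have hgal : IsGalois ℚ N := ⟨⟩
  obtain ⟨p, A, φ, hp, hpT, hAp, hφ, hgen⟩ :=
    exists_frobenius_zpowers_eq N (AlgEquiv.restrictNormalHom N g) T
  have hmem : AlgEquiv.restrictNormalHom N g ∈
      Subgroup.zpowers (AlgEquiv.restrictNormalHom N φ) := by
    rw [hgen]
    exact Subgroup.mem_zpowers _
  rw [← mem_powers_iff_mem_zpowers] at hmem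
  obtain ⟨j, hj⟩ := hmem
  refine ⟨p, A, φ, j, hp, hpT, hAp, hφ, fun x hx => ?_⟩
  have hj' : AlgEquiv.restrictNormalHom N (φ ^ j) = AlgEquiv.restrictNormalHom N g := by
    rw [map_pow]
    exact hj
  have h1 : algebraMap N Qbar ((AlgEquiv.restrictNormalHom N (φ ^ j)) ⟨x, hLN hx⟩) =
      (φ ^ j) (algebraMap N Qbar ⟨x, hLN hx⟩) :=
    AlgEquiv.restrictNormal_commutes (φ ^ j) N ⟨x, hLN hx⟩
  have h2 : algebraMap N Qbar ((AlgEquiv.restrictNormalHom N g) ⟨x, hLN hx⟩) =
      g (algebraMap N Qbar ⟨x, hLN hx⟩) :=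
    AlgEquiv.restrictNormal_commutes g N ⟨x, hLN hx⟩
  rw [hj'] at h1
  exact h1.symm.trans h2

/-- The same, in the shape of `GaloisActionIsAdicContinuous`: `g⁻¹ * φ ^ j` fixes `L`
pointwise. -/
theorem exists_frobenius_inv_mul_pow_fixes (L : IntermediateField ℚ Qbar)
    [FiniteDimensional ℚ L] (g : GQ) (T : Finset ℕ) :
    ∃ (p : ℕ) (A : ValuationSubring Qbar) (φ : GQ) (j : ℕ), p.Prime ∧ p ∉ T ∧
      A.LiesOverPrime p ∧ A.IsFrobeniusAt φ p ∧ ∀ x ∈ L, (g⁻¹ * φ ^ j) x = x := by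
  obtain ⟨p, A, φ, j, hp, hpT, hAp, hφ, h⟩ := exists_frobenius_pow_eq_on L g T
  refine ⟨p, A, φ, j, hp, hpT, hAp, hφ, fun x hx => ?_⟩
  rw [AlgEquiv.mul_apply, h x hx]
  exact g.symm_apply_apply x

end Level

end Fermat.Agent.ES.GAL.ChebQbar23
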