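/-
Program J, leaf (AUT) (helper10): **automorphisms of an algebraically closed field over a subfield move
transcendental elements.**  Pure field theory, Mathlib only.

`K ⊆ Ω` fields, `Ω` algebraically closed, `c ∈ Ω` transcendental over `K`, `a ∈ K`:
* `exists_algEquiv_add` : there is `σ : Ω ≃ₐ[K] Ω` with `σ c = c + a`
  (extend `{c}` to a transcendence basis `B`, shift the variable `c` of `K[B]`, extend to the algebraic
  closure `Ω` of `K(B)`);
* `isAlgebraic_of_forall_algEquiv_eq` : an element fixed by all of `Aut(Ω/K)` is algebraic over `K`;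
  `mem_range_of_forall_algEquiv_eq` : … and lies in `K` if `K` is algebraically closed;
* `infinite_orbit` / `infinite_orbit_of_finiteIndex` : for `K` infinite, the orbit of a transcendental
  element under `Aut(Ω/K)`, or under any subgroup of finite index, is infinite.
-/
import Mathlib

set_option autoImplicit false

noncomputable section

namespace Fermat.Agent.ES.GAL.AutTranscendental10

open MvPolynomial

/-! ### the shift automorphism of a polynomial ring -/

section Shift

variable {K : Type*} [CommRing K] {ι : Type*}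

open Classical in
/-- the substitution `X_i ↦ X_i + a` (other variables fixed). -/
def shiftHom (i : ι) (a : K) : MvPolynomial ι K →ₐ[K] MvPolynomial ι K :=
  aeval (fun j => if j = i then X j + C a else X j)

theorem shiftHom_X_self (i : ι) (a : K) : shiftHom i a (X i) = X i + C a := by
  rw [shiftHom, aeval_X, if_pos rfl]

theorem shiftHom_X_of_ne (i : ι) (a : K) {j : ι} (h : j ≠ i) : shiftHom i a (X j) = X j := by
  rw [shiftHom, aeval_X, if_neg h]

theorem shiftHom_comp (i : ι) (a b : K) :
    (shiftHom i a).comp (shiftHom i b) = shiftHom i (a + b) := by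
  apply MvPolynomial.algHom_ext
  intro j
  rw [AlgHom.comp_apply]
  by_cases h : j = i
  · subst h
    have hC : shiftHom j a (C b) = C b := by rw [shiftHom, aeval_C]; rfl
    rw [shiftHom_X_self, shiftHom_X_self, map_add, shiftHom_X_self, hC, map_add]
    ring
  · rw [shiftHom_X_of_ne i b h, shiftHom_X_of_ne i a h, shiftHom_X_of_ne i (a + b) h]

theorem shiftHom_zero (i : ι) : shiftHom i (0 : K) = AlgHom.id K _ := by
  apply MvPolynomial.algHom_ext
  intro j
  by_cases h : j = i
  · subst h
    rw [shiftHom_X_self, map_zero, add_zero, AlgHom.id_apply]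
  · rw [shiftHom_X_of_ne i 0 h, AlgHom.id_apply]

/-- the shift automorphism `X_i ↦ X_i + a`. -/
def shiftEquiv (i : ι) (a : K) : MvPolynomial ι K ≃ₐ[K] MvPolynomial ι K :=
  AlgEquiv.ofAlgHom (shiftHom i a) (shiftHom i (-a))
    (by rw [shiftHom_comp, add_neg_cancel, shiftHom_zero])
    (by rw [shiftHom_comp, neg_add_cancel, shiftHom_zero])

@[simp] theorem shiftEquiv_apply (i : ι) (a : K) (p : MvPolynomial ι K) :
    shiftEquiv i a p = shiftHom i a p := rfl

end Shift

/-! ### moving a transcendental element -/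

section Main

variable {K Ω : Type*} [Field K] [Field Ω] [Algebra K Ω] [IsAlgClosed Ω]

/-- **(AUT)**: for `c` transcendental over `K` and `a ∈ K` there is a `K`-automorphism of the
algebraically closed field `Ω` with `c ↦ c + a`. -/
theorem exists_algEquiv_add {c : Ω} (hc : Transcendental K c) (a : K) :
    ∃ σ : Ω ≃ₐ[K] Ω, σ c = c + algebraMap K Ω a := by
  classical
  -- a transcendence basis containing `c`
  have hs : AlgebraicIndepOn K (id : Ω → Ω) {c} := by
    have : Subsingleton ({c} : Set Ω) := inferInstance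
    exact (algebraicIndependent_singleton_iff (⟨c, rfl⟩ : ({c} : Set Ω))).mpr hc
  obtain ⟨B, hcB, hB⟩ := exists_isTranscendenceBasis_superset hs
  set v : B → Ω := fun b => (b : Ω) with hv
  have hB' : IsTranscendenceBasis K v := hB
  let i₀ : B := ⟨c, hcB rfl⟩
  let _ := IsAlgClosed.isAlgClosure_of_transcendence_basis v hB'
  -- the shift on `K[B]`, transported to `K[v(B)] ⊆ Ω`
  let e : Algebra.adjoin K (Set.range v) ≃ₐ[K] Algebra.adjoin K (Set.range v) :=
    hB'.1.aevalEquiv.symm.trans ((shiftEquiv i₀ a).trans hB'.1.aevalEquiv)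
  let σ₀ : Ω ≃+* Ω := IsAlgClosure.equivOfEquiv Ω Ω e.toRingEquiv
  have hσ₀ : ∀ y : Algebra.adjoin K (Set.range v),
      σ₀ (algebraMap _ Ω y) = algebraMap _ Ω (e y) := fun y =>
    IsAlgClosure.equivOfEquiv_algebraMap Ω Ω e.toRingEquiv y
  have hcomm : ∀ r : K, σ₀ (algebraMap K Ω r) = algebraMap K Ω r := by
    intro r
    have h1 : algebraMap K Ω r =
        algebraMap (Algebra.adjoin K (Set.range v)) Ω (algebraMap K _ r) := rfl
    rw [h1, hσ₀, e.commutes]
  refine ⟨AlgEquiv.ofRingEquiv (f := σ₀) hcomm, ?_⟩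
  show σ₀ c = c + algebraMap K Ω a
  have h2 : c = algebraMap (Algebra.adjoin K (Set.range v)) Ω (hB'.1.aevalEquiv (X i₀)) := by
    rw [AlgebraicIndependent.algebraMap_aevalEquiv, aeval_X]
  have h3 : e (hB'.1.aevalEquiv (X i₀)) = hB'.1.aevalEquiv (X i₀ + C a) := by
    show hB'.1.aevalEquiv ((shiftEquiv i₀ a) (hB'.1.aevalEquiv.symm (hB'.1.aevalEquiv (X i₀)))) = _
    rw [AlgEquiv.symm_apply_apply, shiftEquiv_apply, shiftHom_X_self]
  conv_lhs => rw [h2]
  rw [hσ₀, h3, AlgebraicIndependent.algebraMap_aevalEquiv, map_add, aeval_X, aeval_C]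

/-- a transcendental element is moved by some `K`-automorphism. -/
theorem exists_algEquiv_ne {c : Ω} (hc : Transcendental K c) : ∃ σ : Ω ≃ₐ[K] Ω, σ c ≠ c := by
  obtain ⟨σ, hσ⟩ := exists_algEquiv_add hc 1
  refine ⟨σ, ?_⟩
  rw [hσ, map_one]
  intro h
  exact one_ne_zero (α := Ω) (by simp at h)

/-- an element of `Ω` fixed by all `K`-automorphisms is algebraic over `K`. -/
theorem isAlgebraic_of_forall_algEquiv_eq {c : Ω} (h : ∀ σ : Ω ≃ₐ[K] Ω, σ c = c) :
    IsAlgebraic K c := by
  by_contra hc
  obtain ⟨σ, hσ⟩ := exists_algEquiv_ne (K := K) (c := c) hc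
  exact hσ (h σ)

/-- if moreover `K` is algebraically closed, it lies in `K`. -/
theorem mem_range_of_forall_algEquiv_eq [IsAlgClosed K] {c : Ω}
    (h : ∀ σ : Ω ≃ₐ[K] Ω, σ c = c) : c ∈ Set.range (algebraMap K Ω) := by
  have hint : IsIntegral K c := (isAlgebraic_of_forall_algEquiv_eq h).isIntegral
  have hdeg := IsAlgClosed.degree_eq_one_of_irreducible K (minpoly.irreducible hint)
  exact minpoly.mem_range_of_degree_eq_one K c hdeg

/-- alias of `mem_range_of_forall_algEquiv_eq` (name used in the J blueprint). -/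
theorem mem_range_of_fixed [IsAlgClosed K] {c : Ω}
    (h : ∀ σ : Ω ≃ₐ[K] Ω, σ c = c) : c ∈ Set.range (algebraMap K Ω) :=
  mem_range_of_forall_algEquiv_eq h

omit [IsAlgClosed Ω] in
/-- conversely to `mem_range_of_forall_algEquiv_eq`: not in `K` ⇒ transcendental (for `K`
algebraically closed). -/
theorem transcendental_of_not_mem_range [IsAlgClosed K] {c : Ω}
    (hc : c ∉ Set.range (algebraMap K Ω)) : Transcendental K c := by
  intro halg
  apply hc
  have hint : IsIntegral K c := halg.isIntegral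
  have hdeg := IsAlgClosed.degree_eq_one_of_irreducible K (minpoly.irreducible hint)
  exact minpoly.mem_range_of_degree_eq_one K c hdeg

/-- the orbit of a transcendental element under `Aut(Ω/K)` is infinite (`K` infinite). -/
theorem infinite_orbit [Infinite K] {c : Ω} (hc : Transcendental K c) :
    (MulAction.orbit (Ω ≃ₐ[K] Ω) c).Infinite := by
  have hinj : Function.Injective (fun a : K => c + algebraMap K Ω a) := by
    intro a b hab
    exact (algebraMap K Ω).injective (add_left_cancel hab)
  refine (Set.infinite_range_of_injective hinj).mono ?_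
  rintro _ ⟨a, rfl⟩
  obtain ⟨σ, hσ⟩ := exists_algEquiv_add hc a
  exact ⟨σ, hσ⟩

/-- the orbit of a transcendental element under a subgroup of finite index of `Aut(Ω/K)` is
infinite (`K` infinite). -/
theorem infinite_orbit_of_finiteIndex [Infinite K] (H : Subgroup (Ω ≃ₐ[K] Ω)) [H.FiniteIndex]
    {c : Ω} (hc : Transcendental K c) : (MulAction.orbit H c).Infinite := by
  classical
  intro hfin
  apply infinite_orbit hc
  have : Finite ((Ω ≃ₐ[K] Ω) ⧸ H) := Subgroup.finite_quotient_of_finiteIndex
  have hsub : MulAction.orbit (Ω ≃ₐ[K] Ω) c ⊆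
      ⋃ q : (Ω ≃ₐ[K] Ω) ⧸ H, (fun y => (Quotient.out q : Ω ≃ₐ[K] Ω) • y) '' MulAction.orbit H c := by
    rintro _ ⟨g, rfl⟩
    rw [Set.mem_iUnion]
    refine ⟨(g : (Ω ≃ₐ[K] Ω) ⧸ H), ?_⟩
    set g' : Ω ≃ₐ[K] Ω := Quotient.out (g : (Ω ≃ₐ[K] Ω) ⧸ H) with hg'
    have hmem : g'⁻¹ * g ∈ H := by
      rw [← QuotientGroup.eq]
      exact Quotient.out_eq _
    refine ⟨(⟨g'⁻¹ * g, hmem⟩ : H) • c, ⟨⟨g'⁻¹ * g, hmem⟩, rfl⟩, ?_⟩
    show g' • ((g'⁻¹ * g) • c) = g • c
    rw [smul_smul, mul_inv_cancel_left]
  exact (Set.finite_iUnion fun q => hfin.image _).subset hsub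

end Main

end Fermat.Agent.ES.GAL.AutTranscendental10
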