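/-
Program J (chapter J6.3), helper12: **open stabilisers** for the Galois action on the places,
divisors and divisor classes of `Fbar N = ℚ̄ · F_N`.

`HasLevel C` : the condition `C σ` on `σ ∈ Gal(ℚ̄/ℚ)` holds on `Gal(ℚ̄/L)` for some number field `L`.
* `hasLevel_elt`     : every `b ∈ Fbar N` is fixed by an open subgroup (coefficients in a number field);
* `hasLevel_place`   : every place `P` of `Fbar N` is fixed by an open subgroup — NOT via finite
  orbits: the values at `P` of module generators of the chart ring generate a number field;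
* `hasLevel_divisor`, `hasLevel_pic0`, `hasLevel_finite` : divisors, classes, finite sets of classes;
* `hasLevel_torsion` : if `J₀(N)[n]` is finite, it is pointwise fixed by an open subgroup, and
  `factorsThroughFiniteLevel_torsionGaloisRep` in the Prelude's shape.
-/
import Mathlib
import Fermat.Agent.ES.RED.SpecialFibre13
import Fermat.Agent.RED.DESC.CoeffDescent1
import Fermat.Agent.RED.TOP.FbarFacts20
import Fermat.Prelude.Def_ModularCurve_ArithmeticGalois
import Fermat.Prelude.Def_GaloisRep_Residual

set_option autoImplicit false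
set_option synthInstance.maxHeartbeats 400000
set_option linter.unusedSectionVars false
set_option linter.style.haveILetI false

noncomputable section

open AlgebraicCurve ModularCurve IntermediateField

namespace Fermat.Agent.ES.GAL.OpenStab12

open Fermat.Agent.X0.FF Fermat.Agent.ES.RED.SpecialFibre13 Fermat.Agent.ES.RED.PlaceValue13

/-- `ℚbar`. -/
local notation "Qb" => AlgebraicClosure ℚ

/-- `ℚ̄ / ℚ` is algebraic (for the `ℚ`-algebra structure used by `IntermediateField ℚ ℚ̄`). -/
theorem isAlgebraic_qb : Algebra.IsAlgebraic ℚ Qb := AlgebraicClosure.isAlgebraic ℚ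

attribute [local instance] isAlgebraic_qb

/-! ### Conditions of finite level -/

/-- the condition `C` holds on `Gal(ℚ̄/L)` for some number field `L`. -/
def HasLevel (C : (Qb ≃ₐ[ℚ] Qb) → Prop) : Prop :=
  ∃ L : IntermediateField ℚ Qb, FiniteDimensional ℚ L ∧
    ∀ σ : Qb ≃ₐ[ℚ] Qb, (∀ a ∈ L, σ a = a) → C σ

theorem HasLevel.mono {C C' : (Qb ≃ₐ[ℚ] Qb) → Prop} (h : HasLevel C) (hC : ∀ σ, C σ → C' σ) :
    HasLevel C' := by
  obtain ⟨L, hL, H⟩ := h
  exact ⟨L, hL, fun σ hσ => hC σ (H σ hσ)⟩

theorem hasLevel_true : HasLevel (fun _ => True) :=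
  ⟨⊥, inferInstance, fun _ _ => trivial⟩

theorem HasLevel.and {C C' : (Qb ≃ₐ[ℚ] Qb) → Prop} (h : HasLevel C) (h' : HasLevel C') :
    HasLevel (fun σ => C σ ∧ C' σ) := by
  obtain ⟨L, hL, H⟩ := h
  obtain ⟨L', hL', H'⟩ := h'
  haveI := hL
  haveI := hL'
  exact ⟨L ⊔ L', inferInstance, fun σ hσ =>
    ⟨H σ fun a ha => hσ a (le_sup_left (a := L) ha), H' σ fun a ha => hσ a (le_sup_right (a := L) ha)⟩⟩

theorem hasLevel_forall_finset {ι : Type*} (S : Finset ι) (C : ι → (Qb ≃ₐ[ℚ] Qb) → Prop)
    (h : ∀ i ∈ S, HasLevel (C i)) : HasLevel (fun σ => ∀ i ∈ S, C i σ) := by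
  classical
  induction S using Finset.induction_on with
  | empty => exact hasLevel_true.mono fun _ _ i hi => absurd hi (Finset.notMem_empty i)
  | insert i S _ ih =>
    refine ((h i (Finset.mem_insert_self i S)).and
      (ih fun j hj => h j (Finset.mem_insert_of_mem hj))).mono ?_
    rintro σ ⟨h1, h2⟩ j hj
    rcases Finset.mem_insert.1 hj with rfl | hj
    · exact h1
    · exact h2 j hj

/-- a constant is fixed by an open subgroup. -/
theorem hasLevel_const (c : Qb) : HasLevel (fun σ => σ c = c) :=
  ⟨ℚ⟮c⟯, adjoin.finiteDimensional (Algebra.IsIntegral.isIntegral c),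
    fun σ hσ => hσ c (mem_adjoin_simple_self ℚ c)⟩

/-! ### Generic: a place is determined by finitely many values -/

section Generic

variable {K F : Type*} [Field K] [Field F] [Algebra K F] [IsAlgClosed K] [CharZero K] {x : F}

/-- two `K`-points of the chart `intRing K x` agreeing on `x` and on module generators coincide. -/
theorem chartHom_ext (χ χ' : intRing K x →ₐ[K] K) (S : Finset (intRing K x))
    (hS : Submodule.span (polyRing K x) (S : Set (intRing K x)) = ⊤)
    (hxx : χ (genB K x) = χ' (genB K x)) (hSS : ∀ b ∈ S, χ b = χ' b) : χ = χ' := by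
  have hpoly : ∀ (a : F) (ha : a ∈ polyRing K x),
      χ (algebraMap (polyRing K x) (intRing K x) ⟨a, ha⟩) =
        χ' (algebraMap (polyRing K x) (intRing K x) ⟨a, ha⟩) := by
    intro a ha
    induction ha using Algebra.adjoin_induction with
    | mem y hy =>
      rw [Set.mem_singleton_iff] at hy
      subst hy
      exact hxx
    | algebraMap c =>
      have e : algebraMap (polyRing K x) (intRing K x)
          ⟨algebraMap K F c, Subalgebra.algebraMap_mem _ c⟩ = algebraMap K (intRing K x) c := rfl
      rw [e, χ.commutes, χ'.commutes]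
    | add a b ha hb iha ihb =>
      have e : algebraMap (polyRing K x) (intRing K x) ⟨a + b, add_mem ha hb⟩ =
          algebraMap (polyRing K x) (intRing K x) ⟨a, ha⟩ +
            algebraMap (polyRing K x) (intRing K x) ⟨b, hb⟩ := rfl
      rw [e, map_add, map_add, iha, ihb]
    | mul a b ha hb iha ihb =>
      have e : algebraMap (polyRing K x) (intRing K x) ⟨a * b, mul_mem ha hb⟩ =
          algebraMap (polyRing K x) (intRing K x) ⟨a, ha⟩ *
            algebraMap (polyRing K x) (intRing K x) ⟨b, hb⟩ := rfl
      rw [e, map_mul, map_mul, iha, ihb]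
  ext b
  have hb : b ∈ Submodule.span (polyRing K x) (S : Set (intRing K x)) := hS ▸ Submodule.mem_top
  induction hb using Submodule.span_induction with
  | mem b hb => exact hSS b hb
  | zero => rw [map_zero, map_zero]
  | add a b _ _ ha hb => rw [map_add, map_add, ha, hb]
  | smul a b _ hb =>
    rw [Algebra.smul_def, map_mul, map_mul, hb, hpoly a.1 a.2]

variable (hx : IsGen K x)

/-- a semilinear automorphism fixing `x`, the module generators of the chart ring and their values
at `v` fixes the place `v`. -/
theorem smul_place_eq (g : SemilinearAut K F) (hgx : g • x = x) (v : Place K F)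
    (hv : x ∈ v.toValuationSubring) (S : Finset (intRing K x))
    (hS : Submodule.span (polyRing K x) (S : Set (intRing K x)) = ⊤)
    (hgS : ∀ b ∈ S, g • ((b : intRing K x) : F) = b)
    (hvalx : SemilinearAut.baseAut g (chartPoint hx v hv (genB K x)) =
      chartPoint hx v hv (genB K x))
    (hval : ∀ b ∈ S, SemilinearAut.baseAut g (chartPoint hx v hv b) = chartPoint hx v hv b) :
    g • v = v := by
  have := hx.finite
  have : CharZero K⟮x⟯ := charZero_of_injective_algebraMap (algebraMap K K⟮x⟯).injective
  have : Algebra.IsSeparable K⟮x⟯ F := Algebra.IsAlgebraic.isSeparable_of_perfectField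
  have hgv := smul_mem_smul_of_mem g hgx v hv
  have key : ∀ b : intRing K x, g • ((b : intRing K x) : F) = b →
      chartPoint hx (g • v) hgv b = SemilinearAut.baseAut g (chartPoint hx v hv b) := by
    intro b hb
    have h := chartPoint_smul g hgx hx v hv b
    have e : (⟨g • ((b : intRing K x) : F), smul_mem_intRing g hgx b.2⟩ : intRing K x) = b :=
      Subtype.ext hb
    rwa [e] at h
  refine eq_of_chart_values_eq hx (g • v) v hgv hv fun b => ?_
  have hχ : chartPoint hx (g • v) hgv = chartPoint hx v hv := by
    refine chartHom_ext _ _ S hS ?_ fun b hb => ?_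
    · rw [key (genB K x) hgx, hvalx]
    · rw [key b (hgS b hb), hval b hb]
  rw [hχ]

end Generic

/-! ### The modular function fields -/

section Modular

variable (N : ℕ) [NeZero N]

/-- every element of `Fbar N` is fixed by an open subgroup. -/
theorem hasLevel_elt (b : modularFunctionFieldBar N) :
    HasLevel (fun σ => arithmeticGalois (modularFunctionFieldFull N) σ • b = b) := by
  obtain ⟨L, -, hL, b', -, hb'⟩ :=
    Fermat.Agent.RED.DESC.CoeffDescent1.exists_finite_descent (L := Qb)
      (F₀ := modularFunctionFieldFull N) ⊥ b.2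
  refine ⟨L, hL, fun σ hσ => Subtype.ext ?_⟩
  rw [coe_arithmeticGalois_smul, ← hb', coeffMap_coeffMap]
  refine coeffMap_congr (RingHom.ext fun a => ?_) b'
  exact hσ _ a.2

/-- the formal `j` is fixed by the whole Galois group. -/
theorem arithmeticGalois_smul_jF (σ : Qb ≃ₐ[ℚ] Qb) :
    arithmeticGalois (modularFunctionFieldFull N) σ • Fermat.Agent.X0.jF N =
      Fermat.Agent.X0.jF N := by
  apply Subtype.ext
  rw [coe_arithmeticGalois_smul]
  exact coeffMap_coeffEmb σ _

/-- **every place of `Fbar N` is fixed by an open subgroup of `Gal(ℚ̄/ℚ)`.** -/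
theorem hasLevel_place (P : Place Qb (modularFunctionFieldBar N)) :
    HasLevel (fun σ => arithmeticGalois (modularFunctionFieldFull N) σ • P = P) := by
  -- a Galois-fixed generator in the valuation ring of `P`
  obtain ⟨x, hx, hgx, hP⟩ : ∃ x : modularFunctionFieldBar N, IsGen Qb x ∧
      (∀ σ : Qb ≃ₐ[ℚ] Qb, arithmeticGalois (modularFunctionFieldFull N) σ • x = x) ∧
      x ∈ P.toValuationSubring := by
    have hj := Fermat.Agent.RED.TOP.FbarFacts20.isGen_j N
    rcases mem_or_inv_mem (x := Fermat.Agent.X0.jF N) P with h | h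
    · exact ⟨_, hj, arithmeticGalois_smul_jF N, h⟩
    · refine ⟨_, isGen_inv hj, fun σ => ?_, h⟩
      rw [smul_inv'', arithmeticGalois_smul_jF]
  haveI := finite_intRing hx
  obtain ⟨S, hS⟩ := (Module.finite_def.1 (finite_intRing hx) :
    (⊤ : Submodule (polyRing Qb x) (intRing Qb x)).FG)
  have h1 := hasLevel_forall_finset S
    (fun b σ => arithmeticGalois (modularFunctionFieldFull N) σ • ((b : intRing Qb x) :
      modularFunctionFieldBar N) = b) (fun b _ => hasLevel_elt N b)
  have h2 := hasLevel_forall_finset S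
    (fun b σ => σ (chartPoint hx P hP b) = chartPoint hx P hP b)
    (fun b _ => hasLevel_const _)
  have h3 := hasLevel_const (chartPoint hx P hP (genB Qb x))
  refine ((h1.and h2).and h3).mono ?_
  rintro σ ⟨⟨hσ1, hσ2⟩, hσ3⟩
  exact smul_place_eq hx _ (hgx σ) P hP S hS hσ1 hσ3 hσ2

/-- every divisor of `Fbar N` is fixed by an open subgroup. -/
theorem hasLevel_divisor (D : Divisor Qb (modularFunctionFieldBar N)) :
    HasLevel (fun σ => arithmeticGalois (modularFunctionFieldFull N) σ • D = D) := by
  refine (hasLevel_forall_finset D.support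
    (fun P σ => arithmeticGalois (modularFunctionFieldFull N) σ • P = P)
    (fun P _ => hasLevel_place N P)).mono fun σ hσ => ?_
  rw [SemilinearAut.divisor_smul_def]
  have := Finsupp.mapDomain_congr (v := D)
    (f := (arithmeticGalois (modularFunctionFieldFull N) σ • ·)) (g := id) (fun P hP => hσ P hP)
  rw [this, Finsupp.mapDomain_id]

/-- **every point of `J₀(N)(ℚ̄)` is fixed by an open subgroup.** -/
theorem hasLevel_pic0 (y : JZero N) : HasLevel (fun σ => σ • y = y) := by
  obtain ⟨D, rfl⟩ := Pic0.mk_surjective y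
  refine (hasLevel_divisor N (D : Divisor Qb (modularFunctionFieldBar N))).mono fun σ hσ => ?_
  rw [galois_smul_pic0_def, SemilinearAut.pic0_smul_mk]
  exact congrArg Pic0.mk (Subtype.ext hσ)

/-- a finite set of points of `J₀(N)(ℚ̄)` is pointwise fixed by an open subgroup. -/
theorem hasLevel_finite (T : Set (JZero N)) (hT : T.Finite) :
    HasLevel (fun σ => ∀ y ∈ T, σ • y = y) := by
  refine (hasLevel_forall_finset hT.toFinset (fun y σ => σ • y = y)
    (fun y _ => hasLevel_pic0 N y)).mono fun σ hσ y hy => hσ y (hT.mem_toFinset.2 hy)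

/-- **if `J₀(N)[n]` is finite, it is pointwise fixed by an open subgroup.** -/
theorem hasLevel_torsion (n : ℕ) (hfin : {y : JZero N | n • y = 0}.Finite) :
    HasLevel (fun σ => ∀ y : JZero N, n • y = 0 → σ • y = y) :=
  hasLevel_finite N _ hfin

/-- **the Galois representation on `J₀(N)[n]` factors through a finite level** (Prelude's
`GaloisFactorsThroughFiniteLevel`), as soon as `J₀(N)[n]` is finite. -/
theorem factorsThroughFiniteLevel_torsionGaloisRep (n : ℕ)
    [Finite (Pic0.torsion Qb (modularFunctionFieldBar N) n)] :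
    GaloisFactorsThroughFiniteLevel (JZero.torsionGaloisRep N n) := by
  obtain ⟨L, hL, H⟩ := hasLevel_finite N
    (Set.range (Subtype.val : Pic0.torsion Qb (modularFunctionFieldBar N) n → JZero N))
    (Set.finite_range _)
  refine ⟨L, hL, fun σ hσ => LinearMap.ext fun y => Subtype.ext ?_⟩
  rw [JZero.coe_torsionGaloisRep_apply]
  exact H σ hσ y ⟨y, rfl⟩

end Modular

end Fermat.Agent.ES.GAL.OpenStab12
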