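/-
Program J (ES/GAL, analytic core (SPL) of the Frobenius density theorem; helper16).

Number fields `K ⊆ L`, `L / K` Galois, `n = [L : K]`.  With `ℓ(s) = log (1 / (s - 1))` on `(1, 2]`:

* `exists_inertia_eq_bot` (UNR): there is `d ≠ 0` such that every nonzero prime `P` of `𝓞 L` with
  `(d : 𝓞 L) ∉ P` has trivial inertia group;
* `zsum_*`: elementary calculus of `Set.primeIdealZetaSum` (monotone, union bound, inclusion–exclusion
  for two sets, finite disjoint unions, comparison with `primeZeta`);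
* `degOnePrimes_subset` : for `L / K` Galois a degree-one prime outside the finite ramified set splits
  completely;
* `log_le_splitPrimes` (SPL-low): `ℓ(s) - B ≤ n * ∑_{p split} N p ^ (-s)`;
* `splitPrimes_bound` (SPL): `|n * ∑_{p split} N p ^ (-s) - ℓ(s)| ≤ B`;
* `goodPrimes_bound` (TOT): `|∑_{p good} N p ^ (-s) - ℓ(s)| ≤ B` for the primes of prime norm not dividing
  `m` (`NotAllSplit.goodPrimes K m`);
* `splitPrimes_inter_bound` (SPL-good): `|n * ∑_{p split, p ∈ T} N p ^ (-s) - ℓ(s)| ≤ B` for every set `T`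
  containing `goodPrimes K m`, in particular for `T = goodPrimes K m`.
-/
import Mathlib
import Fermat.Agent.CFT.NotAllSplit

set_option autoImplicit false
set_option linter.unusedSectionVars false
set_option linter.style.haveILetI false

open IsDedekindDomain Ideal NumberField
open scoped ENNReal NNReal Pointwise nonZeroDivisors
open Fermat.Agent.CFT.C1ClassDefs Fermat.Agent.CFT.SplitPrimes Fermat.Agent.CFT.NotAllSplit

namespace Fermat.Agent.ES.GAL.SplitDensity16

noncomputable section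

/-! ### Calculus of `primeIdealZetaSum` -/

section Calculus

variable (K : Type*) [Field K] [NumberField K]

theorem zsum_eq_tsum_indicator (T : Set (HeightOneSpectrum (𝓞 K))) (s : ℝ) :
    T.primeIdealZetaSum s = ∑' p : HeightOneSpectrum (𝓞 K), T.indicator (xP K s) p :=
  (tsum_subtype T (xP K s))

theorem summable_indicator (T : Set (HeightOneSpectrum (𝓞 K))) {s : ℝ} (hs : 1 < s) :
    Summable (T.indicator (xP K s)) :=
  (summable_xP K hs).indicator T

theorem indicator_xP_nonneg (T : Set (HeightOneSpectrum (𝓞 K))) (s : ℝ)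
    (p : HeightOneSpectrum (𝓞 K)) : 0 ≤ T.indicator (xP K s) p :=
  Set.indicator_nonneg (fun p _ => (xP_pos K s p).le) p

theorem zsum_mono {T T' : Set (HeightOneSpectrum (𝓞 K))} (h : T ⊆ T') {s : ℝ} (hs : 1 < s) :
    T.primeIdealZetaSum s ≤ T'.primeIdealZetaSum s := by
  rw [zsum_eq_tsum_indicator, zsum_eq_tsum_indicator]
  exact (summable_indicator K T hs).tsum_le_tsum
    (fun p => Set.indicator_le_indicator_of_subset h (fun p => (xP_pos K s p).le) p)
    (summable_indicator K T' hs)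

theorem zsum_univ (s : ℝ) :
    (Set.univ : Set (HeightOneSpectrum (𝓞 K))).primeIdealZetaSum s = primeZeta K s := by
  rw [zsum_eq_tsum_indicator, Set.indicator_univ]
  rfl

theorem zsum_le_primeZeta (T : Set (HeightOneSpectrum (𝓞 K))) {s : ℝ} (hs : 1 < s) :
    T.primeIdealZetaSum s ≤ primeZeta K s := by
  rw [← zsum_univ]
  exact zsum_mono K (Set.subset_univ T) hs

/-- inclusion–exclusion for two sets. -/
theorem zsum_union_add_inter (T T' : Set (HeightOneSpectrum (𝓞 K))) {s : ℝ} (hs : 1 < s) :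
    (T ∪ T').primeIdealZetaSum s + (T ∩ T').primeIdealZetaSum s =
      T.primeIdealZetaSum s + T'.primeIdealZetaSum s := by
  simp only [zsum_eq_tsum_indicator]
  rw [← (summable_indicator K _ hs).tsum_add (summable_indicator K _ hs),
    ← (summable_indicator K _ hs).tsum_add (summable_indicator K _ hs)]
  congr 1
  ext p
  exact congrFun (Set.indicator_union_add_inter (xP K s) T T') p

theorem zsum_union_le (T T' : Set (HeightOneSpectrum (𝓞 K))) {s : ℝ} (hs : 1 < s) :
    (T ∪ T').primeIdealZetaSum s ≤ T.primeIdealZetaSum s + T'.primeIdealZetaSum s := by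
  have h := zsum_union_add_inter K T T' hs
  have h2 := NumberField.Set.primeIdealZetaSum_nonneg (T ∩ T') s
  linarith

theorem zsum_le_of_subset_union {T T₁ T₂ : Set (HeightOneSpectrum (𝓞 K))} (h : T ⊆ T₁ ∪ T₂)
    {s : ℝ} (hs : 1 < s) :
    T.primeIdealZetaSum s ≤ T₁.primeIdealZetaSum s + T₂.primeIdealZetaSum s :=
  (zsum_mono K h hs).trans (zsum_union_le K T₁ T₂ hs)

/-- `∑_T + ∑_{Tᶜ} = ∑`. -/
theorem zsum_add_compl (T : Set (HeightOneSpectrum (𝓞 K))) {s : ℝ} (hs : 1 < s) :
    T.primeIdealZetaSum s + Tᶜ.primeIdealZetaSum s = primeZeta K s := by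
  have h := zsum_union_add_inter K T Tᶜ hs
  rw [Set.union_compl_self, Set.inter_compl_self, zsum_univ] at h
  have h0 : (∅ : Set (HeightOneSpectrum (𝓞 K))).primeIdealZetaSum s = 0 := by
    rw [zsum_eq_tsum_indicator]
    simp
  rw [h0, add_zero] at h
  exact h.symm

/-- finite disjoint unions: if every prime of `T` lies in exactly one `U i` (`i ∈ I`) and the `U i`
are contained in `T`, then `∑_T = ∑_{i ∈ I} ∑_{U i}`. -/
theorem zsum_eq_sum_of_partition {ι : Type*} (I : Finset ι)
    (T : Set (HeightOneSpectrum (𝓞 K))) (U : ι → Set (HeightOneSpectrum (𝓞 K)))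
    (hsub : ∀ i ∈ I, U i ⊆ T)
    (hex : ∀ p ∈ T, ∃ i ∈ I, p ∈ U i)
    (hdisj : ∀ i ∈ I, ∀ j ∈ I, ∀ p, p ∈ U i → p ∈ U j → i = j) {s : ℝ} (hs : 1 < s) :
    T.primeIdealZetaSum s = ∑ i ∈ I, (U i).primeIdealZetaSum s := by
  classical
  simp only [zsum_eq_tsum_indicator]
  rw [← Summable.tsum_finsetSum (fun i _ => summable_indicator K (U i) hs)]
  congr 1
  ext p
  by_cases hp : p ∈ T
  · obtain ⟨i, hi, hpi⟩ := hex p hp
    rw [Set.indicator_of_mem hp, Finset.sum_eq_single i]
    · rw [Set.indicator_of_mem hpi]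
    · intro j hj hji
      rw [Set.indicator_of_notMem]
      intro hpj
      exact hji (hdisj j hj i hi p hpj hpi)
    · intro h
      exact absurd hi h
  · rw [Set.indicator_of_notMem hp]
    symm
    apply Finset.sum_eq_zero
    intro i hi
    rw [Set.indicator_of_notMem]
    intro hpi
    exact hp (hsub i hi hpi)

end Calculus

/-! ### Unramified outside a finite set -/

section Unram

variable (K L : Type*) [Field K] [Field L] [NumberField K] [NumberField L] [Algebra K L]
  [IsGalois K L]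

/-- **(UNR)**: all primes not containing a fixed nonzero integer have trivial inertia group. -/
theorem exists_inertia_eq_bot :
    ∃ d : ℕ, d ≠ 0 ∧ ∀ P : Ideal (𝓞 L), P.IsPrime → P ≠ ⊥ → ((d : ℕ) : 𝓞 L) ∉ P →
      P.inertia (L ≃ₐ[K] L) = ⊥ := by
  have hD : differentIdeal (𝓞 K) (𝓞 L) ≠ ⊥ := differentIdeal_ne_bot (A := 𝓞 K) (B := 𝓞 L)
  refine ⟨absNorm (differentIdeal (𝓞 K) (𝓞 L)), ?_, ?_⟩
  · rwa [Ne, Ideal.absNorm_eq_zero_iff]
  · intro P hP hP0 hd
    haveI := hP
    have hnd : ¬ P ∣ differentIdeal (𝓞 K) (𝓞 L) := by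
      intro hdvd
      apply hd
      exact (Ideal.dvd_iff_le.mp hdvd) (Ideal.absNorm_mem _)
    haveI hun : Algebra.IsUnramifiedAt (𝓞 K) P := not_dvd_differentIdeal_iff.mp hnd
    have he : P.ramificationIdx (𝓞 K) = 1 := Ideal.ramificationIdx_eq_one_of_isUnramifiedAt
    set q : Ideal (𝓞 K) := P.under (𝓞 K) with hq
    haveI : P.LiesOver q := ⟨rfl⟩
    have hq0 : q ≠ ⊥ := fun h => hP0 (Ideal.eq_bot_of_comap_eq_bot h)
    haveI : q.IsMaximal := Ring.DimensionLEOne.maximalOfPrime hq0 inferInstance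
    have h1 := Ideal.card_inertia_eq_ramificationIdxIn (G := L ≃ₐ[K] L) q P
    rw [Ideal.ramificationIdxIn_eq_ramificationIdx q P (L ≃ₐ[K] L), he] at h1
    exact (Subgroup.card_eq_one).mp h1

end Unram

/-! ### Degree-one primes split completely, outside the ramified set -/

section DegOne

variable (K L : Type*) [Field K] [Field L] [NumberField K] [NumberField L] [Algebra K L]

/-- The primes of `K` containing the integer `d`. -/
def divPrimes (d : ℕ) : Set (HeightOneSpectrum (𝓞 K)) :=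
  {p | ((d : ℕ) : 𝓞 K) ∈ p.asIdeal}

theorem finite_divPrimes {d : ℕ} (hd : d ≠ 0) : (divPrimes K d).Finite := by
  have h0 : Ideal.span {((d : ℕ) : 𝓞 K)} ≠ 0 := by
    rw [Ne, Ideal.zero_eq_bot, Ideal.span_singleton_eq_bot]
    exact_mod_cast hd
  refine (Ideal.finite_factors h0).subset ?_
  intro p hp
  show p.asIdeal ∣ Ideal.span {((d : ℕ) : 𝓞 K)}
  rw [Ideal.dvd_iff_le, Ideal.span_singleton_le_iff_mem]
  exact hp

variable {K L}

theorem natCast_notMem_of_under {d : ℕ} {p : HeightOneSpectrum (𝓞 K)} (hp : p ∉ divPrimes K d)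
    (P : Ideal (𝓞 L)) (hP : P.under (𝓞 K) = p.asIdeal) : ((d : ℕ) : 𝓞 L) ∉ P := by
  intro h
  apply hp
  show ((d : ℕ) : 𝓞 K) ∈ p.asIdeal
  rw [← hP, Ideal.under_def, Ideal.mem_comap, map_natCast]
  exact h

variable (K L)

/-- For `L / K` Galois: a degree-one prime with trivial inertia splits completely. -/
theorem mem_splitPrimes_of_degOne [IsGalois K L] {p : HeightOneSpectrum (𝓞 K)}
    (hp : p ∈ degOnePrimes K L)
    (hunr : ∀ P : Ideal (𝓞 L), P.IsPrime → P.under (𝓞 K) = p.asIdeal →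
      P.inertia (L ≃ₐ[K] L) = ⊥) :
    p ∈ splitPrimes K L := by
  obtain ⟨P, hPp, hN⟩ := hp
  haveI : P.asIdeal.LiesOver p.asIdeal := ⟨hPp.symm⟩
  have hbelow : below (R := 𝓞 K) P = p := HeightOneSpectrum.ext hPp
  have hinert := hunr P.asIdeal P.isPrime hPp
  have hf : P.asIdeal.inertiaDeg (𝓞 K) = 1 := by
    have hpow := absNorm_below_pow K L P
    rw [hbelow, hN] at hpow
    have h2 := Fermat.Agent.CFT.SplitPrimes.two_le_absNorm K p
    have : absNorm p.asIdeal ^ P.asIdeal.inertiaDeg (𝓞 K) = absNorm p.asIdeal ^ 1 := by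
      rw [pow_one]; exact hpow
    exact Nat.pow_right_injective h2 this
  have hmain := Ideal.ncard_primesOver_mul_card_inertia_mul_finrank (G := L ≃ₐ[K] L)
    p.asIdeal P.asIdeal
  rw [hinert, hf, Subgroup.card_bot, mul_one, mul_one, IsGalois.card_aut_eq_finrank] at hmain
  exact hmain

/-- For `L / K` Galois, degree-one primes split completely up to the finitely many primes dividing
`d`. -/
theorem exists_degOnePrimes_subset [IsGalois K L] :
    ∃ d : ℕ, d ≠ 0 ∧ degOnePrimes K L ⊆ splitPrimes K L ∪ divPrimes K d := by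
  obtain ⟨d, hd, H⟩ := exists_inertia_eq_bot K L
  refine ⟨d, hd, fun p hp => ?_⟩
  by_cases hpd : p ∈ divPrimes K d
  · exact Or.inr hpd
  · left
    refine mem_splitPrimes_of_degOne K L hp fun P hP hPp => ?_
    have hP0 : P ≠ ⊥ := by
      rintro rfl
      apply p.ne_bot
      rw [← hPp]
      exact Ideal.under_bot (𝓞 K) (𝓞 L)
    exact H P hP hP0 (natCast_notMem_of_under hpd P hPp)

end DegOne

/-! ### The two-sided density bounds -/

section Bounds

variable (K L : Type*) [Field K] [Field L] [NumberField K] [NumberField L] [Algebra K L]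

/-- **(SPL-low)**: `log (1 / (s - 1)) - B ≤ [L : K] * ∑_{p split completely} N p ^ (-s)`. -/
theorem log_le_splitPrimes [IsGalois K L] :
    ∃ B : ℝ, ∀ s ∈ Set.Ioc (1 : ℝ) 2, Real.log (1 / (s - 1)) - B ≤
      Module.finrank K L * (splitPrimes K L).primeIdealZetaSum s := by
  obtain ⟨B, hB⟩ := log_le_degOnePrimes K L
  obtain ⟨d, hd, hsub⟩ := exists_degOnePrimes_subset K L
  refine ⟨B + Module.finrank K L * (divPrimes K d).ncard, fun s hs => ?_⟩
  have h1 := hB s hs
  have h2 := zsum_le_of_subset_union K hsub hs.1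
  have h3 := NumberField.Set.primeIdealZetaSum_le_card_of_finite (finite_divPrimes K hd)
    (by linarith [hs.1] : (0 : ℝ) ≤ s)
  have hn : (0 : ℝ) ≤ Module.finrank K L := Nat.cast_nonneg _
  have h4 : (Module.finrank K L : ℝ) * (degOnePrimes K L).primeIdealZetaSum s ≤
      Module.finrank K L * ((splitPrimes K L).primeIdealZetaSum s + (divPrimes K d).ncard) :=
    mul_le_mul_of_nonneg_left (h2.trans (by linarith)) hn
  rw [mul_add] at h4
  linarith

/-- **(SPL)**: `|[L : K] * ∑_{p split completely} N p ^ (-s) - log (1 / (s - 1))| ≤ B`. -/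
theorem splitPrimes_bound [IsGalois K L] :
    ∃ B : ℝ, ∀ s ∈ Set.Ioc (1 : ℝ) 2,
      |Module.finrank K L * (splitPrimes K L).primeIdealZetaSum s - Real.log (1 / (s - 1))| ≤ B := by
  obtain ⟨B₁, h₁⟩ := splitPrimes_le_log K L
  obtain ⟨B₂, h₂⟩ := log_le_splitPrimes K L
  refine ⟨max B₁ B₂, fun s hs => ?_⟩
  rw [abs_le]
  constructor
  · linarith [h₂ s hs, le_max_right B₁ B₂]
  · linarith [h₁ s hs, le_max_left B₁ B₂]

/-- The primes outside `goodPrimes K m` contribute a bounded amount. -/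
theorem exists_compl_goodPrimes_le {m : ℕ} (hm : m ≠ 0) :
    ∃ C : ℝ, ∀ s ∈ Set.Ioc (1 : ℝ) 2, (goodPrimes K m)ᶜ.primeIdealZetaSum s ≤ C := by
  refine ⟨Module.finrank ℚ K * primeZeta ℚ 2 + (smallPrimes K m).ncard, fun s hs => ?_⟩
  have h1 := primeZeta_le_goodPrimes K hm hs.1
  have h2 := zsum_add_compl K (goodPrimes K m) hs.1
  linarith

/-- **(TOT)**: the primes of prime norm not dividing `m` carry `log (1 / (s - 1)) + O(1)`. -/
theorem goodPrimes_bound {m : ℕ} (hm : m ≠ 0) :
    ∃ B : ℝ, ∀ s ∈ Set.Ioc (1 : ℝ) 2,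
      |(goodPrimes K m).primeIdealZetaSum s - Real.log (1 / (s - 1))| ≤ B := by
  obtain ⟨B, hB⟩ := primeZeta_bound K
  obtain ⟨C, hC⟩ := exists_compl_goodPrimes_le K hm
  refine ⟨B + |C|, fun s hs => ?_⟩
  have h1 := abs_le.mp (hB s hs)
  have h2 := zsum_add_compl K (goodPrimes K m) hs.1
  have h3 := hC s hs
  have h4 := NumberField.Set.primeIdealZetaSum_nonneg (goodPrimes K m)ᶜ s
  have h5 := le_abs_self C
  have h6 := abs_nonneg C
  rw [abs_le]
  constructor <;> linarith [h1.1, h1.2]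

/-- **(SPL-good)**: the density bound for completely split primes inside any set `T` containing the
primes of prime norm not dividing `m`. -/
theorem splitPrimes_inter_bound [IsGalois K L] {m : ℕ} (hm : m ≠ 0)
    (T : Set (HeightOneSpectrum (𝓞 K))) (hT : goodPrimes K m ⊆ T) :
    ∃ B : ℝ, ∀ s ∈ Set.Ioc (1 : ℝ) 2,
      |Module.finrank K L * (splitPrimes K L ∩ T).primeIdealZetaSum s -
        Real.log (1 / (s - 1))| ≤ B := by
  obtain ⟨B, hB⟩ := splitPrimes_bound K L
  obtain ⟨C, hC⟩ := exists_compl_goodPrimes_le K hm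
  refine ⟨B + Module.finrank K L * |C|, fun s hs => ?_⟩
  have h1 := abs_le.mp (hB s hs)
  have hn : (0 : ℝ) ≤ Module.finrank K L := Nat.cast_nonneg _
  have hup : (splitPrimes K L ∩ T).primeIdealZetaSum s ≤ (splitPrimes K L).primeIdealZetaSum s :=
    zsum_mono K Set.inter_subset_left hs.1
  have hsub : splitPrimes K L ⊆ (splitPrimes K L ∩ T) ∪ (goodPrimes K m)ᶜ := by
    intro p hp
    by_cases hpT : p ∈ T
    · exact Or.inl ⟨hp, hpT⟩
    · exact Or.inr fun hg => hpT (hT hg)
  have hlow := zsum_le_of_subset_union K hsub hs.1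
  have h3 := hC s hs
  have h5 := le_abs_self C
  have h6 : (Module.finrank K L : ℝ) * (splitPrimes K L).primeIdealZetaSum s ≤
      Module.finrank K L * ((splitPrimes K L ∩ T).primeIdealZetaSum s + |C|) :=
    mul_le_mul_of_nonneg_left (by linarith) hn
  have h7 := mul_le_mul_of_nonneg_left hup hn
  have h8 : (0 : ℝ) ≤ Module.finrank K L * |C| := mul_nonneg hn (abs_nonneg C)
  rw [mul_add] at h6
  rw [abs_le]
  constructor <;> linarith [h1.1, h1.2]

/-- **(SPL-good)** for `T = goodPrimes K m`. -/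
theorem splitPrimes_goodPrimes_bound [IsGalois K L] {m : ℕ} (hm : m ≠ 0) :
    ∃ B : ℝ, ∀ s ∈ Set.Ioc (1 : ℝ) 2,
      |Module.finrank K L * (splitPrimes K L ∩ goodPrimes K m).primeIdealZetaSum s -
        Real.log (1 / (s - 1))| ≤ B :=
  splitPrimes_inter_bound K L hm _ subset_rfl

end Bounds

end

end Fermat.Agent.ES.GAL.SplitDensity16
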